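/-
GATE-J / J4-TATE EIGS-Q (helper8): the TRANSITION MAPS of the Kummer tower.
For `d ∣ m` the identity on units induces `Kum K F m →* Kum K F d`
(`m ∣ div u ⇒ d ∣ div u`, `m`-th powers are `d`-th powers); functoriality in `(d, m)` and
compatibility with the endomorphisms induced by monoid endomorphisms of `Fˣ`.
Generic in `(K, F)`; Mathlib + `EigIface` only.
-/
import Fermat.Agent.GJ.J2.EigIface

set_option autoImplicit false

noncomputable section

namespace Fermat.Agent.GJ.KumTower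

open AlgebraicCurve Fermat.Agent.GJ.KumGroup

section Generic

variable {K F : Type*} [Field K] [Field F] [Algebra K F] {d m : ℕ}

theorem pDivUnits_le_of_dvd (h : d ∣ m) : pDivUnits K F m ≤ pDivUnits K F d := by
  intro u hu P
  exact (Int.natCast_dvd_natCast.mpr h).trans (hu P)

/-- inclusion `pDivUnits m → pDivUnits d` for `d ∣ m` -/
def pDivIncl (h : d ∣ m) : pDivUnits K F m →* pDivUnits K F d :=
  Subgroup.inclusion (pDivUnits_le_of_dvd h)

@[simp]
theorem coe_pDivIncl (h : d ∣ m) (u : pDivUnits K F m) :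
    ((pDivIncl h u : pDivUnits K F d) : Fˣ) = (u : Fˣ) := rfl

theorem pPowers_le_comap (h : d ∣ m) :
    pPowers K F m ≤ (pPowers K F d).comap (pDivIncl h) := by
  rintro u ⟨w, hw⟩
  obtain ⟨e, rfl⟩ := h
  refine ⟨w ^ e, ?_⟩
  show (w ^ e) ^ d = (u : Fˣ)
  rw [← pow_mul, mul_comm e d]
  exact hw

/-- **transition map** `Kum_m → Kum_d` (`d ∣ m`), the identity on representatives -/
def trans (h : d ∣ m) : Kum K F m →* Kum K F d :=
  (QuotientGroup.map (pPowers K F m) (pPowers K F d) (pDivIncl h) (pPowers_le_comap h) :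
    pDivUnits K F m ⧸ pPowers K F m →* pDivUnits K F d ⧸ pPowers K F d)

@[simp]
theorem trans_mk (h : d ∣ m) (u : pDivUnits K F m) :
    trans h (Kum.mk u) = Kum.mk (pDivIncl h u) := rfl

theorem trans_refl (x : Kum K F m) : trans (dvd_refl m) x = x := by
  obtain ⟨u, rfl⟩ := Kum.mk_surjective x
  rfl

theorem trans_trans {c : ℕ} (h₁ : c ∣ d) (h₂ : d ∣ m) (x : Kum K F m) :
    trans h₁ (trans h₂ x) = trans (h₁.trans h₂) x := by
  obtain ⟨u, rfl⟩ := Kum.mk_surjective x
  rfl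

/-- the kernel of the transition map: classes of `d`-th powers (that are `m`-divisible) -/
theorem trans_eq_one_iff (h : d ∣ m) (u : pDivUnits K F m) :
    trans h (Kum.mk u) = 1 ↔ ∃ w : Fˣ, (u : Fˣ) = w ^ d := by
  rw [trans_mk, ← map_one (Kum.mk : pDivUnits K F d →* Kum K F d), eq_comm, Kum.mk_eq_mk_iff]
  constructor
  · rintro ⟨w, hw⟩
    exact ⟨w, by rw [coe_pDivIncl] at hw; rw [hw]; simp⟩
  · rintro ⟨w, hw⟩
    exact ⟨w, by rw [coe_pDivIncl, hw]; simp⟩

end Generic

section Maps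

variable {K F K' F' : Type*} [Field K] [Field F] [Algebra K F] [Field K'] [Field F']
  [Algebra K' F']

/-- the map of Kummer groups induced by a monoid hom `Fˣ →* F'ˣ` preserving `m`-divisibility -/
def kumMapOf (m : ℕ) (f : Fˣ →* F'ˣ) (hf : ∀ u ∈ pDivUnits K F m, f u ∈ pDivUnits K' F' m) :
    Kum K F m →* Kum K' F' m :=
  QuotientGroup.lift (pPowers K F m)
    (Kum.mk.comp (MonoidHom.codRestrict (f.comp (pDivUnits K F m).subtype) (pDivUnits K' F' m)
      (fun u => hf u u.2))) (by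
    intro x hx
    obtain ⟨w, hw⟩ := hx
    have hw' : w ^ m = (x : Fˣ) := hw
    rw [MonoidHom.mem_ker]
    show Kum.mk (MonoidHom.codRestrict (f.comp (pDivUnits K F m).subtype) (pDivUnits K' F' m)
      (fun u => hf u u.2) x) = 1
    rw [← map_one (Kum.mk : pDivUnits K' F' m →* Kum K' F' m), eq_comm, Kum.mk_eq_mk_iff]
    refine ⟨f w, ?_⟩
    show f (x : Fˣ) = ((1 : pDivUnits K' F' m) : F'ˣ) * f w ^ m
    rw [← hw', map_pow, Subgroup.coe_one, one_mul])

theorem kumMapOf_mk (m : ℕ) (f : Fˣ →* F'ˣ)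
    (hf : ∀ u ∈ pDivUnits K F m, f u ∈ pDivUnits K' F' m) (u : pDivUnits K F m) :
    kumMapOf m f hf (Kum.mk u) = Kum.mk ⟨f u, hf u u.2⟩ := rfl

/-- maps induced by a hom of unit groups commute with the transition maps -/
theorem trans_kumMapOf {d m : ℕ} (h : d ∣ m) (f : Fˣ →* F'ˣ)
    (hfm : ∀ u ∈ pDivUnits K F m, f u ∈ pDivUnits K' F' m)
    (hfd : ∀ u ∈ pDivUnits K F d, f u ∈ pDivUnits K' F' d) (x : Kum K F m) :
    trans h (kumMapOf m f hfm x) = kumMapOf d f hfd (trans h x) := by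
  obtain ⟨u, rfl⟩ := Kum.mk_surjective x
  rfl

end Maps

end Fermat.Agent.GJ.KumTower
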