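/-
GATE-J / J4-TATE, EIGS (helper63): the Kummer isomorphism for a GENERAL modulus `m`.

Generic setting: `Γ = Γ₀(N)`, `m ≥ 1`, `ζ` a primitive `m`-th root of unity, `F/K` a function field
with a realisation `real : F →+* Mer` in T24's field of meromorphic functions on `ℍ`.  Under the
hypotheses `ThetaHyp` (saturation, invariance, existence of Kummer data for good characters,
`m`-divisibility of data, and "every `m`-divisible unit has a good datum") the assignment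
`ψ ↦ [u_ψ]` is an isomorphism

  `theta : GoodHom N m ≃+ Additive (Kum K F m)`

characterised by `theta ψ = [u] ↔ ∃ h, IsKumDatum real ζ ψ h u`.  It is natural in `m`
(`theta_proj`) and Hecke-equivariant (`theta_cohT`).  Everything is stated for `[NeZero m]`
(no primality), so that `m = p ^ n` is allowed.
-/
import Mathlib
import Fermat.Agent.GJ.J2.Eig
import Fermat.Agent.GJ.J2.Tower.Trans

set_option autoImplicit false
set_option linter.unusedSectionVars false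

open UpperHalfPlane Complex CongruenceSubgroup AlgebraicCurve ModularCurve ModularCurve.Period
open scoped MatrixGroups

noncomputable section

namespace Fermat.Agent.GJ.KumTower

open Fermat.Agent.S24_helper82 Fermat.Agent.GJ.HeckeMer Fermat.Agent.GJ.KumCore
open Fermat.Agent.GJ.KumGroup Fermat.Agent.GJ.EigAsm
open Fermat.Agent.S16_helper49 (cohT)

/-! ### The projection `Kum_m → Kum_d` for `d ∣ m`

This is helper8's transition map `trans` of `Tower/Trans.lean` (`pDivUnits_le_of_dvd`, `pDivIncl`,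
`coe_pDivIncl` live there); `kumProj` is kept as a synonym. -/

section Proj

variable {K F : Type*} [Field K] [Field F] [Algebra K F]

/-- the projection `Kum_m → Kum_d`, induced by the identity on units (`= trans`) -/
def kumProj {d m : ℕ} (h : d ∣ m) : Kum K F m →* Kum K F d := trans h

theorem kumProj_eq_trans {d m : ℕ} (h : d ∣ m) :
    (kumProj h : Kum K F m →* Kum K F d) = trans h := rfl

@[simp] theorem kumProj_mk {d m : ℕ} (h : d ∣ m) (u : pDivUnits K F m) :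
    kumProj h (Kum.mk u) = Kum.mk (pDivIncl h u) := rfl

theorem kum_pow_eq_one {m : ℕ} (x : Kum K F m) : x ^ m = 1 := by
  obtain ⟨u, rfl⟩ := Kum.mk_surjective x
  rw [← map_pow]
  have h : Kum.mk (1 : pDivUnits K F m) = Kum.mk (u ^ m) := by
    rw [Kum.mk_eq_mk_iff]
    exact ⟨(u : Fˣ), by simp⟩
  rw [← h, map_one]

end Proj

/-! ### Good characters -/

section Good

variable (N : ℕ) (m : ℕ)

/-- the group of good characters `Γ₀(N) → ℤ/m` -/
def GoodHom : AddSubgroup (Additive (Gamma0 N) →+ ZMod m) where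
  carrier := {ψ | IsGood N ψ}
  zero_mem' := ⟨fun _ _ => rfl, fun _ _ => rfl⟩
  add_mem' := by
    intro ψ ψ' h h'
    refine ⟨fun γ hγ => ?_, fun g hg => ?_⟩
    · rw [AddMonoidHom.add_apply, h.1 γ hγ, h'.1 γ hγ, add_zero]
    · rw [AddMonoidHom.add_apply, h.2 g hg, h'.2 g hg, add_zero]
  neg_mem' := by
    intro ψ h
    refine ⟨fun γ hγ => ?_, fun g hg => ?_⟩
    · rw [AddMonoidHom.neg_apply, h.1 γ hγ, neg_zero]
    · rw [AddMonoidHom.neg_apply, h.2 g hg, neg_zero]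

variable {N m}

theorem mem_goodHom {ψ : Additive (Gamma0 N) →+ ZMod m} : ψ ∈ GoodHom N m ↔ IsGood N ψ := Iff.rfl

end Good

/-! ### Kummer data on `m`-divisible units, generic realisation -/

section Data

variable {N : ℕ} {m : ℕ} [NeZero m] {K F : Type*} [Field K] [Field F] [Algebra K F]
  (real : F →+* Mer)

/-- the `m`-divisible unit `u` is the `u`-part of a Kummer datum for `ψ` -/
def IsDatG (ζ : ℂ) (ψ : Additive (Gamma0 N) →+ ZMod m) (u : pDivUnits K F m) : Prop :=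
  ∃ h : Mer, IsKumDatum real ζ ψ h (((u : Fˣ) : F))

variable {real}

theorem IsDatG.one (ζ : ℂ) : IsDatG (N := N) (m := m) (K := K) real ζ 0 1 := by
  refine ⟨1, one_ne_zero, ?_, ?_⟩
  · rw [hasMult_zero_iff]
    intro γ
    exact map_one _
  · simp

theorem IsDatG.mul {ζ : ℂ} (hζ : ζ ^ m = 1) {ψ ψ' : Additive (Gamma0 N) →+ ZMod m}
    {u u' : pDivUnits K F m} (D : IsDatG real ζ ψ u) (D' : IsDatG real ζ ψ' u') :
    IsDatG real ζ (ψ + ψ') (u * u') := by
  obtain ⟨h, h0, hm, hr⟩ := D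
  obtain ⟨h', h0', hm', hr'⟩ := D'
  refine ⟨h * h', mul_ne_zero h0 h0', hm.mul hζ hm', ?_⟩
  rw [Subgroup.coe_mul, Units.val_mul, map_mul, hr, hr', mul_pow]

/-- **(K1)** the Kummer class of a datum only depends on `ψ` -/
theorem IsDatG.mk_eq
    (hsat : ∀ x : Mer, (∀ γ : Gamma0 N, compM (γ : SL(2, ℤ)) x = x) → x ^ m ∈ Set.range real →
      x ∈ Set.range real)
    {ζ : ℂ} (hζ : ζ ^ m = 1)
    {ψ : Additive (Gamma0 N) →+ ZMod m} {u u' : pDivUnits K F m}
    (D : IsDatG real ζ ψ u) (D' : IsDatG real ζ ψ u') : Kum.mk u = Kum.mk u' := by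
  obtain ⟨h, Dh⟩ := D
  obtain ⟨h', Dh'⟩ := D'
  obtain ⟨h1, D1⟩ := IsDatG.one (N := N) (m := m) (K := K) (real := real) ζ
  have Dh'' : IsKumDatum real ζ (ψ + 0) h' (((u' : Fˣ) : F)) := by
    rw [add_zero]
    exact Dh'
  obtain ⟨g, hg0, hg⟩ := IsKumDatum.exists_eq_mul_pow hsat hζ Dh D1 Dh''
  rw [Kum.mk_eq_mk_iff]
  refine ⟨Units.mk0 g hg0, ?_⟩
  apply Units.ext
  rw [hg]
  simp

/-- **(K2)** a datum with trivial Kummer class belongs to `ψ = 0` -/
theorem IsDatG.eq_zero_of_mk_eq_one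
    (hinv : ∀ (γ : Gamma0 N) (u : F), compM (γ : SL(2, ℤ)) (real u) = real u)
    {ζ : ℂ} (hζ : IsPrimitiveRoot ζ m)
    {ψ : Additive (Gamma0 N) →+ ZMod m} {u : pDivUnits K F m}
    (D : IsDatG real ζ ψ u) (h1 : Kum.mk u = 1) : ψ = 0 := by
  obtain ⟨h, Dh⟩ := D
  have h2 : Kum.mk (1 : pDivUnits K F m) = Kum.mk u := by rw [h1, map_one]
  rw [Kum.mk_eq_mk_iff] at h2
  obtain ⟨w, hw⟩ := h2
  have hw' : (((u : Fˣ) : F)) = (w : F) ^ m := by
    rw [hw]
    simp
  exact Dh.eq_zero_of_eq_pow hinv hζ hw'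

end Data

/-! ### The Kummer isomorphism -/

section Theta

variable {N : ℕ} {m : ℕ} [NeZero m] {K F : Type*} [Field K] [Field F] [Algebra K F]

/-- the hypotheses under which `ψ ↦ [u_ψ]` is an isomorphism `GoodHom N m ≃ Kum K F m` -/
structure ThetaHyp (K : Type*) {F : Type*} [Field K] [Field F] [Algebra K F] (N m : ℕ)
    (real : F →+* Mer) (ζ : ℂ) : Prop where
  /-- saturation -/
  sat : ∀ x : Mer, (∀ γ : Gamma0 N, compM (γ : SL(2, ℤ)) x = x) → x ^ m ∈ Set.range real →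
      x ∈ Set.range real
  /-- invariance of the realisation -/
  inv : ∀ (γ : Gamma0 N) (u : F), compM (γ : SL(2, ℤ)) (real u) = real u
  /-- existence of Kummer data for good characters -/
  ex : ∀ ψ : Additive (Gamma0 N) →+ ZMod m, IsGood N ψ →
      ∃ (h : Mer) (u : F), IsKumDatum real ζ ψ h u
  /-- divisibility of Kummer data of good characters -/
  pdiv : ∀ (ψ : Additive (Gamma0 N) →+ ZMod m) (h : Mer) (u : F), IsGood N ψ →
      IsKumDatum real ζ ψ h u → ∀ P : Place K F, (m : ℤ) ∣ P.ord u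
  /-- every `m`-divisible unit is a datum of a good character -/
  good : ∀ u : pDivUnits K F m, ∃ ψ : Additive (Gamma0 N) →+ ZMod m,
      IsGood N ψ ∧ IsDatG real ζ ψ u

variable {real : F →+* Mer} {ζ : ℂ}

/-- a datum (as an `m`-divisible unit) for every good character -/
theorem ThetaHyp.exists_isDatG (H : ThetaHyp K N m real ζ)
    (ψ : Additive (Gamma0 N) →+ ZMod m) (hψ : IsGood N ψ) :
    ∃ u : pDivUnits K F m, IsDatG real ζ ψ u := by
  obtain ⟨h, u, D⟩ := H.ex ψ hψ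
  refine ⟨⟨Units.mk0 u D.ne_zero, fun P => ?_⟩, h, D⟩
  exact H.pdiv ψ h u hψ D P

/-- the underlying function of `theta` -/
def thetaFun (H : ThetaHyp K N m real ζ) (ψ : GoodHom N m) : Kum K F m :=
  Kum.mk (H.exists_isDatG ψ.1 ψ.2).choose

theorem thetaFun_spec (H : ThetaHyp K N m real ζ) (ψ : GoodHom N m) :
    IsDatG real ζ ψ.1 (H.exists_isDatG ψ.1 ψ.2).choose :=
  (H.exists_isDatG ψ.1 ψ.2).choose_spec

theorem thetaFun_eq (H : ThetaHyp K N m real ζ) (hζ : ζ ^ m = 1) (ψ : GoodHom N m)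
    {u : pDivUnits K F m} (D : IsDatG real ζ ψ.1 u) : thetaFun H ψ = Kum.mk u :=
  IsDatG.mk_eq H.sat hζ (thetaFun_spec H ψ) D

/-- **(T1)** the Kummer isomorphism `GoodHom N m ≃+ Kum K F m` -/
def theta (H : ThetaHyp K N m real ζ) (hζ : IsPrimitiveRoot ζ m) :
    GoodHom N m ≃+ Additive (Kum K F m) := by
  refine AddEquiv.ofBijective
    (AddMonoidHom.mk' (fun ψ => Additive.ofMul (thetaFun H ψ)) ?_) ⟨?_, ?_⟩
  · intro ψ ψ'
    have D := (thetaFun_spec H ψ).mul hζ.pow_eq_one (thetaFun_spec H ψ')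
    have h1 := thetaFun_eq H hζ.pow_eq_one (ψ + ψ') D
    show Additive.ofMul (thetaFun H (ψ + ψ')) = _
    rw [h1, map_mul]
    rfl
  · rw [injective_iff_map_eq_zero]
    intro ψ hψ
    have h1 : thetaFun H ψ = 1 := hψ
    have := (thetaFun_spec H ψ).eq_zero_of_mk_eq_one H.inv hζ h1
    exact Subtype.ext this
  · intro x
    obtain ⟨u, hu⟩ := Kum.mk_surjective (Additive.toMul x)
    obtain ⟨ψ, hψ, D⟩ := H.good u
    refine ⟨⟨ψ, hψ⟩, ?_⟩
    show Additive.ofMul (thetaFun H ⟨ψ, hψ⟩) = x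
    rw [thetaFun_eq H hζ.pow_eq_one ⟨ψ, hψ⟩ D, hu]
    rfl

theorem theta_apply (H : ThetaHyp K N m real ζ) (hζ : IsPrimitiveRoot ζ m) (ψ : GoodHom N m) :
    theta H hζ ψ = Additive.ofMul (thetaFun H ψ) := rfl

/-- **SPEC** of `theta`: `theta ψ = [u]` iff `u` is (the `u`-part of) a Kummer datum for `ψ`. -/
theorem theta_eq_iff (H : ThetaHyp K N m real ζ) (hζ : IsPrimitiveRoot ζ m) (ψ : GoodHom N m)
    (u : pDivUnits K F m) :
    theta H hζ ψ = Additive.ofMul (Kum.mk u) ↔ IsDatG real ζ ψ.1 u := by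
  constructor
  · intro h
    -- `u = u_ψ · w^m`, so `u` is a datum with `h_ψ · real w`
    have h1 : Kum.mk (H.exists_isDatG ψ.1 ψ.2).choose = Kum.mk u := h
    rw [Kum.mk_eq_mk_iff] at h1
    obtain ⟨w, hw⟩ := h1
    obtain ⟨h0, hh0, hmult, hpow⟩ := thetaFun_spec H ψ
    have hrw : real ((w : Fˣ) : F) ≠ 0 := (map_ne_zero real).mpr w.ne_zero
    refine ⟨h0 * real ((w : Fˣ) : F), mul_ne_zero hh0 hrw, ?_, ?_⟩
    · intro γ
      rw [map_mul, H.inv γ, hmult γ, mul_assoc]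
    · rw [hw, Units.val_mul, map_mul, hpow, mul_pow, Units.val_pow_eq_pow_val, map_pow]
  · intro D
    show Additive.ofMul (thetaFun H ψ) = _
    rw [thetaFun_eq H hζ.pow_eq_one ψ D]

end Theta

/-! ### (T3) Hecke equivariance -/

section Hecke

variable {N : ℕ} {m : ℕ} [NeZero m] {K F : Type*} [Field K] [Field F] [Algebra K F]
  {real : F →+* Mer} {ζ : ℂ}

/-- the Hecke operator `T_ℓ` on good characters -/
def cohTGood {ℓ : ℕ} [Fact ℓ.Prime] (hℓN : ¬ ℓ ∣ N) (ψ : GoodHom N m) : GoodHom N m :=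
  ⟨cohT hℓN (ZMod m) ψ.1, IsGood.cohT ψ.2 hℓN⟩

@[simp] theorem coe_cohTGood {ℓ : ℕ} [Fact ℓ.Prime] (hℓN : ¬ ℓ ∣ N) (ψ : GoodHom N m) :
    (cohTGood hℓN ψ : Additive (Gamma0 N) →+ ZMod m) = cohT hℓN (ZMod m) ψ.1 := rfl

/-- **(T3)** `theta` intertwines `T_ℓ` on characters with the multiplicative Hecke norm on
functions: if `theta ψ = [u]` and `Tu ∈ F` realises the analytic Hecke norm of `real u`, then `Tu` is
an `m`-divisible unit and `theta (T_ℓ ψ) = [Tu]`. -/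
theorem theta_cohT (H : ThetaHyp K N m real ζ) (hζ : IsPrimitiveRoot ζ m) (ψ : GoodHom N m)
    {ℓ : ℕ} [Fact ℓ.Prime] (hℓN : ¬ ℓ ∣ N) (u : pDivUnits K F m)
    (hu : theta H hζ ψ = Additive.ofMul (Kum.mk u)) (Tu : F)
    (hTu : real Tu = Fermat.Agent.GJ.HeckeMer.heckeNormT ℓ (real ((u : Fˣ) : F))) :
    ∃ Tu' : pDivUnits K F m, ((Tu' : Fˣ) : F) = Tu ∧
      theta H hζ (cohTGood hℓN ψ) = Additive.ofMul (Kum.mk Tu') := by
  obtain ⟨h, D⟩ := (theta_eq_iff H hζ ψ u).mp hu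
  have DT := D.heckeNormT hζ.pow_eq_one hℓN hTu
  have hgood : IsGood N (cohT hℓN (ZMod m) ψ.1) := IsGood.cohT ψ.2 hℓN
  refine ⟨⟨Units.mk0 Tu DT.ne_zero, fun P => H.pdiv _ _ Tu hgood DT P⟩, rfl, ?_⟩
  rw [theta_eq_iff]
  exact ⟨_, DT⟩

end Hecke

/-! ### (T2) naturality in the modulus -/

section Nat

variable {N : ℕ} {K F : Type*} [Field K] [Field F] [Algebra K F] {real : F →+* Mer}

/-- reduction of characters `ℤ/m → ℤ/d` for `d ∣ m` -/
def redChar {d m : ℕ} (hdm : d ∣ m) (ψ : Additive (Gamma0 N) →+ ZMod m) :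
    Additive (Gamma0 N) →+ ZMod d :=
  ((ZMod.castHom hdm (ZMod d)).toAddMonoidHom).comp ψ

theorem redChar_apply {d m : ℕ} (hdm : d ∣ m) (ψ : Additive (Gamma0 N) →+ ZMod m)
    (γ : Additive (Gamma0 N)) : redChar hdm ψ γ = ZMod.castHom hdm (ZMod d) (ψ γ) := rfl

/-- reduction of good characters -/
def redGood {d m : ℕ} (hdm : d ∣ m) : GoodHom N m →+ GoodHom N d where
  toFun ψ := ⟨redChar hdm ψ.1, IsGood.comp ψ.2 _⟩
  map_zero' := Subtype.ext (by
    refine AddMonoidHom.ext fun γ => ?_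
    show ZMod.castHom hdm (ZMod d) 0 = 0
    exact map_zero _)
  map_add' ψ ψ' := Subtype.ext (by
    refine AddMonoidHom.ext fun γ => ?_
    show ZMod.castHom hdm (ZMod d) (ψ.1 γ + ψ'.1 γ) = _
    rw [map_add]
    rfl)

@[simp] theorem coe_redGood {d m : ℕ} (hdm : d ∣ m) (ψ : GoodHom N m) :
    (redGood hdm ψ : Additive (Gamma0 N) →+ ZMod d) = redChar hdm ψ.1 := rfl

theorem zmodPow_pow_div {d m : ℕ} [NeZero d] [NeZero m] (hdm : d ∣ m) {ζ : ℂ} (hζ : ζ ^ m = 1)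
    (a : ZMod m) :
    zmodPow ζ a ^ (m / d) = zmodPow (ζ ^ (m / d)) (ZMod.castHom hdm (ZMod d) a) := by
  unfold zmodPow
  have h1 : (ζ ^ (m / d)) ^ d = 1 := by
    rw [← pow_mul, Nat.div_mul_cancel hdm, hζ]
  have h2 : (ZMod.castHom hdm (ZMod d) a).val = a.val % d := by
    rw [ZMod.castHom_apply, ZMod.cast_eq_val, ZMod.val_natCast]
  rw [h2, ← pow_mul, mul_comm, pow_mul, pow_eq_pow_mod a.val h1]

/-- a datum for `ψ` modulo `m` gives a datum for `ψ mod d` modulo `d` (same unit `u`). -/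
theorem IsKumDatum.red {d m : ℕ} [NeZero d] [NeZero m] (hdm : d ∣ m) {ζ : ℂ} (hζ : ζ ^ m = 1)
    {ψ : Additive (Gamma0 N) →+ ZMod m} {h : Mer} {u : F} (D : IsKumDatum real ζ ψ h u) :
    IsKumDatum real (ζ ^ (m / d)) (redChar hdm ψ) (h ^ (m / d)) u := by
  refine ⟨pow_ne_zero _ D.1, fun γ => ?_, ?_⟩
  · rw [map_pow, D.2.1 γ, mul_pow, ← map_pow, zmodPow_pow_div hdm hζ]
    rfl
  · rw [← pow_mul, Nat.div_mul_cancel hdm]
    exact D.2.2

/-- **(T2)** naturality: the projection `Kum_m → Kum_d` corresponds to the reduction of characters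
`ℤ/m → ℤ/d`, with `ζ_d = ζ_m ^ (m/d)`. -/
theorem theta_proj {d m : ℕ} [NeZero d] [NeZero m] (hdm : d ∣ m) {ζ : ℂ}
    (Hm : ThetaHyp K N m real ζ) (Hd : ThetaHyp K N d real (ζ ^ (m / d)))
    (hζ : IsPrimitiveRoot ζ m) (hζd : IsPrimitiveRoot (ζ ^ (m / d)) d) (ψ : GoodHom N m) :
    Additive.ofMul (kumProj hdm (Additive.toMul (theta Hm hζ ψ))) =
      theta Hd hζd (redGood hdm ψ) := by
  obtain ⟨h, D⟩ := thetaFun_spec Hm ψ
  have D' := IsKumDatum.red (real := real) hdm hζ.pow_eq_one D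
  symm
  rw [theta_apply Hm hζ ψ, toMul_ofMul]
  show theta Hd hζd (redGood hdm ψ) = Additive.ofMul (kumProj hdm (Kum.mk _))
  rw [kumProj_mk, theta_eq_iff]
  exact ⟨_, D'⟩

/-- the primitive root needed in `theta_proj` -/
theorem isPrimitiveRoot_pow_div {d m : ℕ} [NeZero m] (hdm : d ∣ m) {ζ : ℂ}
    (hζ : IsPrimitiveRoot ζ m) : IsPrimitiveRoot (ζ ^ (m / d)) d :=
  hζ.pow (Nat.pos_of_ne_zero (NeZero.ne m)) (Nat.div_mul_cancel hdm).symm

end Nat

end Fermat.Agent.GJ.KumTower
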