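/-
GATE-J / J4-TATE, EIGS-C (helper63): the hypotheses `ThetaHyp` of the generic Kummer isomorphism
hold over `ℂ` for EVERY modulus `m ≥ 1`:

  `thetaHypC : ThetaHyp ℂ N m (realC N) ζ`     (`ζ` a primitive `m`-th root of unity),

hence `thetaC : GoodHom N m ≃+ Additive (Kum ℂ (FC N) m)`.

* `sat`  = helper41's (F5) `exists_realizeC_eq_of_pow`;
* `ex`   = helper94's twisted Eisenstein ratios (`exists_isKumDatum_realC`);
* `pdiv` = helper49's `PDiv.dvd_ord_of_datum` + helper71's `cuspBridge`;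
* `good` = NEW here: the multiplier of an `m`-th root of an `m`-divisible unit is a GOOD character
  (trivial on elliptic elements by (R-ell) + the interior dictionary, trivial on parabolic elements
  by (R-par) + the cusp dictionary).
-/
import Mathlib
import Fermat.Agent.GJ.J2.Tower.Theta
import Fermat.Agent.GJ.J2.PDivC
import Fermat.Agent.GJ.J2.Dict.CuspOrdC
import Fermat.Agent.GJ.J2.ExC
import Fermat.Agent.GJ.J2.KumFinE1
import Fermat.Agent.S21_helper65.Parabolic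
import Fermat.Agent.S16.LB.ShimuraClass

set_option autoImplicit false
set_option linter.unusedSectionVars false

open UpperHalfPlane Complex CongruenceSubgroup AlgebraicCurve ModularCurve ModularCurve.Period
open scoped MatrixGroups

noncomputable section

namespace Fermat.Agent.GJ.KumTower

open Fermat.Agent.S24 Fermat.Agent.S24_helper82 Fermat.Agent.GJ.HeckeMer Fermat.Agent.GJ.KumCore
open Fermat.Agent.GJ.KumGroup Fermat.Agent.GJ.EigAsm Fermat.Agent.GJ.Dict
open Fermat.Agent.GJ.Dict.Cusp Fermat.Agent.GJ.Root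

/-! ### Matrix lemmas -/

section Matrices

/-- an upper triangular element of `SL(2, ℤ)` is `± T ^ n` -/
theorem eq_T_zpow_or_neg (g : SL(2, ℤ)) (hc : g 1 0 = 0) :
    ∃ n : ℤ, g = ModularGroup.T ^ n ∨ g = -ModularGroup.T ^ n := by
  have hdet : g 0 0 * g 1 1 - g 0 1 * g 1 0 = 1 := by
    have := g.det_coe
    rw [Matrix.det_fin_two] at this
    exact this
  rw [hc, mul_zero, sub_zero] at hdet
  rcases Int.eq_one_or_neg_one_of_mul_eq_one' hdet with ⟨h0, h1⟩ | ⟨h0, h1⟩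
  · refine ⟨g 0 1, Or.inl ?_⟩
    apply Subtype.ext
    rw [ModularGroup.coe_T_zpow]
    ext i j
    fin_cases i <;> fin_cases j <;> simp [h0, h1, hc]
  · refine ⟨-g 0 1, Or.inr ?_⟩
    apply Subtype.ext
    rw [Matrix.SpecialLinearGroup.coe_neg, ModularGroup.coe_T_zpow]
    ext i j
    fin_cases i <;> fin_cases j <;> simp [h0, h1, hc]

/-- an element of `SL(2, ℤ)` with `|trace| < 2` has a fixed point in the upper half plane -/
theorem exists_fixed_of_trace_sq_lt (g : SL(2, ℤ))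
    (htr : ((g : Matrix (Fin 2) (Fin 2) ℤ).trace) ^ 2 < 4) : ∃ τ : ℍ, g • τ = τ := by
  set a : ℤ := g 0 0 with ha
  set b : ℤ := g 0 1 with hb
  set c : ℤ := g 1 0 with hc
  set d : ℤ := g 1 1 with hd
  have hdet : a * d - b * c = 1 := by
    have := g.det_coe
    rw [Matrix.det_fin_two] at this
    exact this
  have htr' : (a + d) ^ 2 < 4 := by
    rw [Matrix.trace_fin_two] at htr
    exact htr
  have hc0 : c ≠ 0 := by
    intro h0
    rw [h0, mul_zero, sub_zero] at hdet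
    rcases Int.eq_one_or_neg_one_of_mul_eq_one' hdet with ⟨h1, h2⟩ | ⟨h1, h2⟩ <;>
      rw [h1, h2] at htr' <;> norm_num at htr'
  -- the discriminant
  set D : ℝ := 4 - ((a : ℝ) + d) ^ 2 with hD
  have hDpos : 0 < D := by
    have : ((a : ℝ) + d) ^ 2 < 4 := by exact_mod_cast htr'
    rw [hD]; linarith
  set s : ℝ := Real.sqrt D with hs
  have hspos : 0 < s := Real.sqrt_pos.mpr hDpos
  have hss : s * s = D := Real.mul_self_sqrt hDpos.le
  have hcR : (c : ℝ) ≠ 0 := by exact_mod_cast hc0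
  have hdetR : (a : ℝ) * d - b * c = 1 := by exact_mod_cast hdet
  -- the sign of `c`
  set ε : ℝ := if 0 < c then 1 else -1 with hε
  have hεε : ε * ε = 1 := by
    rw [hε]; split_ifs <;> norm_num
  have hεc : 0 < ε * c := by
    rw [hε]
    split_ifs with h
    · rw [one_mul]; exact_mod_cast h
    · have : c < 0 := lt_of_le_of_ne (not_lt.mp h) hc0
      have : (c : ℝ) < 0 := by exact_mod_cast this
      linarith
  -- the fixed point
  set x : ℝ := ((a : ℝ) - d) / (2 * c) with hx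
  set y : ℝ := ε * s / (2 * c) with hy
  have hypos : 0 < y := by
    have h1 : y = s / (2 * (ε * c)) := by
      rw [hy, div_eq_div_iff (mul_ne_zero two_ne_zero hcR) (mul_ne_zero two_ne_zero hεc.ne')]
      have : ε * s * (2 * (ε * c)) = (ε * ε) * (s * (2 * c)) := by ring
      rw [this, hεε, one_mul]
    rw [h1]
    positivity
  let τ : ℍ := ⟨⟨x, y⟩, hypos⟩
  refine ⟨τ, ?_⟩
  apply UpperHalfPlane.ext
  rw [UpperHalfPlane.coe_specialLinearGroup_apply]
  have hτ : (τ : ℂ) = ⟨x, y⟩ := rfl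
  simp only [algebraMap_int_eq, eq_intCast, ← ha, ← hb, ← hc, ← hd]
  have hden : ((c : ℝ) : ℂ) * (τ : ℂ) + ((d : ℝ) : ℂ) ≠ 0 := by
    intro h0
    have := congrArg Complex.im h0
    rw [hτ] at this
    simp at this
    rcases this with h | h
    · exact hc0 h
    · exact hypos.ne' h
  have hnum : ((a : ℝ) : ℂ) * (τ : ℂ) + ((b : ℝ) : ℂ)
      = (τ : ℂ) * (((c : ℝ) : ℂ) * (τ : ℂ) + ((d : ℝ) : ℂ)) := by
    rw [hτ]
    apply Complex.ext
    · simp
      -- real part: a x + b = x (c x + d) - y (c y)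
      have hx' : 2 * (c : ℝ) * x = a - d := by rw [hx]; field_simp
      have hy' : 2 * (c : ℝ) * y = ε * s := by rw [hy]; field_simp
      have hyy : (2 * (c : ℝ) * y) ^ 2 = D := by
        rw [hy', mul_pow, ← pow_two] at *
        nlinarith [hεε, hss]
      have key : (4 * (c : ℝ)) * ((a : ℝ) * x + b - (x * (c * x + d) - y * (c * y))) = 0 := by
        have e1 : (2 * (c : ℝ) * x) ^ 2 = (a - d) ^ 2 := by rw [hx']
        rw [hD] at hyy
        nlinarith [e1, hyy, hx', hdetR]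
      have h4c : (4 * (c : ℝ)) ≠ 0 := mul_ne_zero (by norm_num) hcR
      have := (mul_eq_zero.mp key).resolve_left h4c
      linarith
    · simp
      -- imaginary part: a y = x (c y) + y (c x + d)
      have hx' : 2 * (c : ℝ) * x = a - d := by rw [hx]; field_simp
      nlinarith [hx']
  rw [hnum, mul_div_assoc, div_self hden, mul_one]

theorem neg_one_mem_Gamma0 (N : ℕ) : (-1 : SL(2, ℤ)) ∈ Gamma0 N := by
  rw [Gamma0_mem]
  simp

end Matrices

/-! ### The stabiliser of a meromorphic function -/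

section Stab

/-- the subgroup of `SL(2, ℤ)` fixing `h : Mer` -/
def merStab (h : Mer) : Subgroup SL(2, ℤ) where
  carrier := {x | compM x h = h}
  one_mem' := compM_one h
  mul_mem' := by
    intro a b ha hb
    show compM (a * b) h = h
    rw [compM_mul, ha, hb]
  inv_mem' := by
    intro a ha
    show compM a⁻¹ h = h
    have h1 : compM a⁻¹ (compM a h) = h := by
      rw [← compM_mul, mul_inv_cancel, compM_one]
    rwa [ha] at h1

theorem mem_merStab {h : Mer} {x : SL(2, ℤ)} : x ∈ merStab h ↔ compM x h = h := Iff.rfl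

theorem neg_one_mem_merStab (h : Mer) : (-1 : SL(2, ℤ)) ∈ merStab h := compM_neg_one h

theorem neg_mem_merStab {h : Mer} {x : SL(2, ℤ)} (hx : x ∈ merStab h) : -x ∈ merStab h := by
  have : -x = (-1) * x := by simp
  rw [this]
  exact (merStab h).mul_mem (neg_one_mem_merStab h) hx

end Stab

/-! ### The multiplier of a root of an `m`-divisible unit is good -/

section Good

variable {N : ℕ} [NeZero N] {m : ℕ} [NeZero m] {ζ : ℂ}

/-- a trivial multiplier at `γ` means `ψ γ = 0` -/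
theorem psi_eq_zero_of_mem_merStab (hζ : IsPrimitiveRoot ζ m)
    {ψ : Additive (Gamma0 N) →+ ZMod m} {h : Mer} (hh : h ≠ 0) (H : HasMult ζ ψ h)
    (γ : Gamma0 N) (hγ : (γ : SL(2, ℤ)) ∈ merStab h) : ψ (Additive.ofMul γ) = 0 := by
  have h1 := H γ
  rw [mem_merStab.mp hγ] at h1
  have h2 : algebraMap ℂ Mer (zmodPow ζ (ψ (Additive.ofMul γ))) * h = algebraMap ℂ Mer 1 * h := by
    rw [← h1, map_one, one_mul]
  have h3 := (algebraMap ℂ Mer).injective (mul_right_cancel₀ hh h2)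
  exact (zmodPow_eq_one_iff hζ _).mp h3

/-- **elliptic half**: a root of an `m`-divisible unit is invariant under every element of `Γ₀(N)`
with a fixed point in `ℍ`. -/
theorem mem_merStab_of_fixed {u : FC N} (hu : u ≠ 0)
    (hdiv : ∀ P : Place ℂ (FC N), (m : ℤ) ∣ P.ord u) {h : Mer} (hh : h ≠ 0)
    (hpow : realizeC N u = h ^ m) {γ : SL(2, ℤ)} (hγ : γ ∈ Gamma0 N)
    {c : ℂ} (hc : compM γ h = algebraMap ℂ Mer c * h) {τ : ℍ} (hfix : γ • τ = τ) :
    γ ∈ merStab h := by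
  obtain ⟨P, e, he, hPe⟩ := Fermat.Agent.GJ.KumFin.exists_place_at N τ
  -- `c = μ ^ ord_τ h`
  have h1 : c = mult γ τ ^ (ordM τ h) := eq_mult_zpow_of_fixed hfix hh hc
  -- `ord_τ h = e * k`
  obtain ⟨k, hk⟩ := hdiv P
  have h2 := hPe u hu
  rw [hpow, ordM_pow, hk] at h2
  have hm0 : (m : ℤ) ≠ 0 := by exact_mod_cast NeZero.ne m
  have h3 : ordM τ h = (e : ℤ) * k := by
    apply mul_left_cancel₀ hm0
    rw [h2]; ring
  -- `μ ^ e = 1` by a uniformiser at `P`
  obtain ⟨ϖ, hϖ⟩ := IsDiscreteValuationRing.exists_irreducible P.toValuationSubring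
  have hϖ1 : P.ord ((ϖ : FC N)) = 1 := P.ord_coe_irreducible hϖ
  have hϖ0 : (ϖ : FC N) ≠ 0 := by
    intro h0
    rw [h0, Place.ord_zero] at hϖ1
    exact zero_ne_one hϖ1
  have h4 := hPe _ hϖ0
  rw [hϖ1, mul_one] at h4
  have hprim : IsPrimitiveRoot (mult γ τ) (orderOf (mult γ τ)) := IsPrimitiveRoot.orderOf _
  have h5 : ((orderOf (mult γ τ) : ℕ) : ℤ) ∣ ordM τ (realizeC N (ϖ : FC N)) :=
    dvd_ordM_of_fixed hfix hprim (compM_realizeC_of_mem_Gamma0 N hγ _)
  rw [h4] at h5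
  have h6 : orderOf (mult γ τ) ∣ e := Int.natCast_dvd_natCast.mp h5
  have h7 : mult γ τ ^ e = 1 := orderOf_dvd_iff_pow_eq_one.mp h6
  have h8 : c = 1 := by
    rw [h1, h3, zpow_mul, zpow_natCast, h7, one_zpow]
  rw [mem_merStab, hc, h8, map_one, one_mul]

/-- **parabolic half**: a root of an `m`-divisible unit is invariant under the generator
`δ T^w δ⁻¹` of the stabiliser of the cusp `δ ∞` in `Γ₀(N)`. -/
theorem conj_T_pow_width_mem_merStab {u : FC N} (hu : u ≠ 0)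
    (hdiv : ∀ P : Place ℂ (FC N), (m : ℤ) ∣ P.ord u) {h : Mer} (hh : h ≠ 0)
    (hpow : realizeC N u = h ^ m) (δ : SL(2, ℤ)) :
    δ * ModularGroup.T ^ widthC N ((δ⁻¹ : SL(2, ℤ)) : I0 N) * δ⁻¹ ∈ merStab h := by
  have hm : 0 < m := Nat.pos_of_ne_zero (NeZero.ne m)
  set q : I0 N := ((δ⁻¹ : SL(2, ℤ)) : I0 N) with hq
  set w : ℕ := widthC N q with hw
  have hw0 : 0 < w := widthC_pos N q
  obtain ⟨e, he⟩ := widthC_dvd N q
  have he0 : 0 < e := by
    rcases Nat.eq_zero_or_pos e with h0 | h0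
    · rw [h0, mul_zero] at he
      exact absurd he (NeZero.ne N)
    · exact h0
  have hmult : cuspMultC N q = (e : ℤ) := by
    rw [cuspMultC_eq, ← hw, he, Nat.mul_div_cancel_left e hw0]
  -- membership in `Γ₀(N)`
  have hγ : δ * ModularGroup.T ^ w * δ⁻¹ ∈ Gamma0 N := by
    have h1 := conj_mem_Gamma0_of_smul_eq N (T_pow_widthC_smul N q)
    rwa [inv_inv] at h1
  have hT : compM (δ * ModularGroup.T ^ w * δ⁻¹) (h ^ m) = h ^ m := by
    rw [← hpow]
    exact compM_realizeC_of_mem_Gamma0 N hγ u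
  have hNwe : ((w * e : ℕ) : ℝ) = (N : ℝ) := by rw [hw, ← he]
  have hord : MerOrdAtImInfty ((w * e : ℕ) : ℝ) (compM δ (h ^ m))
      ((e : ℤ) * (cuspPlaceC N q).ord u) := by
    rw [hNwe]
    have h1 := merOrdAtImInfty_SigC N δ⁻¹ u hu
    rw [SigC_apply, inv_inv, hpow, ← hq, hmult] at h1
    exact h1
  obtain ⟨n', hn', hc⟩ := compM_conj_T_pow_of_merOrd hm hw0 he0 hh δ hord hT
  have he' : (e : ℤ) ≠ 0 := by exact_mod_cast he0.ne'
  have h5 : (cuspPlaceC N q).ord u = n' := mul_left_cancel₀ he' hn'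
  have h6 : (m : ℤ) ∣ n' := by rw [← h5]; exact hdiv _
  have h7 : Complex.exp (2 * Real.pi * Complex.I * n' / m) = 1 :=
    (exp_two_pi_I_div_eq_one_iff hm n').mpr h6
  rw [mem_merStab, hc, h7, map_one, one_mul]

/-- every element of `Γ₀(N)` with `trace² = 4` fixes a root of an `m`-divisible unit -/
theorem mem_merStab_of_trace_sq {u : FC N} (hu : u ≠ 0)
    (hdiv : ∀ P : Place ℂ (FC N), (m : ℤ) ∣ P.ord u) {h : Mer} (hh : h ≠ 0)
    (hpow : realizeC N u = h ^ m) {γ : SL(2, ℤ)} (hγ : γ ∈ Gamma0 N)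
    (htr : ((γ : Matrix (Fin 2) (Fin 2) ℤ).trace) ^ 2 = 4) : γ ∈ merStab h := by
  obtain ⟨δ, hδ⟩ := Fermat.Agent.S21_helper65.exists_conj_upper γ htr
  obtain ⟨n, hn⟩ := eq_T_zpow_or_neg (δ⁻¹ * γ * δ) hδ
  set q : I0 N := ((δ⁻¹ : SL(2, ℤ)) : I0 N) with hq
  set w : ℕ := widthC N q with hw
  have hgen := conj_T_pow_width_mem_merStab hu hdiv hh hpow δ
  rw [← hq, ← hw] at hgen
  -- `δ T^n δ⁻¹ ∈ Γ₀(N)`
  have hconj : δ * ModularGroup.T ^ n * δ⁻¹ ∈ Gamma0 N := by
    rcases hn with hn | hn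
    · have : δ * ModularGroup.T ^ n * δ⁻¹ = γ := by rw [← hn]; group
      rw [this]; exact hγ
    · have : δ * ModularGroup.T ^ n * δ⁻¹ = (-1) * γ := by
        have h1 : ModularGroup.T ^ n = -(δ⁻¹ * γ * δ) := by rw [hn, neg_neg]
        rw [h1]
        simp only [mul_neg, neg_mul, neg_inj]
        group
      rw [this]
      exact (Gamma0 N).mul_mem (neg_one_mem_Gamma0 N) hγ
  -- `δ T^|n| δ⁻¹ ∈ Γ₀(N)`, hence `w ∣ |n|`
  have hconj' : δ * ModularGroup.T ^ n.natAbs * δ⁻¹ ∈ Gamma0 N := by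
    rcases Int.natAbs_eq n with h | h
    · have : δ * ModularGroup.T ^ n.natAbs * δ⁻¹ = δ * ModularGroup.T ^ n * δ⁻¹ := by
        conv_rhs => rw [h, zpow_natCast]
      rw [this]; exact hconj
    · have : δ * ModularGroup.T ^ n.natAbs * δ⁻¹ = (δ * ModularGroup.T ^ n * δ⁻¹)⁻¹ := by
        conv_rhs => rw [h, zpow_neg, zpow_natCast]
        group
      rw [this]; exact (Gamma0 N).inv_mem hconj
  have hdvd : w ∣ n.natAbs := by
    rw [hw, ← T_pow_smul_eq_iff N q n.natAbs, hq, MulAction.Quotient.smul_mk, QuotientGroup.eq,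
      smul_eq_mul]
    have := (Gamma0 N).inv_mem hconj'
    have e1 : (ModularGroup.T ^ n.natAbs * δ⁻¹)⁻¹ * δ⁻¹
        = (δ * ModularGroup.T ^ n.natAbs * δ⁻¹)⁻¹ := by group
    rw [e1]; exact this
  obtain ⟨k, hk⟩ := hdvd
  -- `δ T^|n| δ⁻¹ = (δ T^w δ⁻¹)^k`
  have hpowk : δ * ModularGroup.T ^ n.natAbs * δ⁻¹ = (δ * ModularGroup.T ^ w * δ⁻¹) ^ k := by
    rw [hk, pow_mul, conj_pow]
  have habs : δ * ModularGroup.T ^ n.natAbs * δ⁻¹ ∈ merStab h := by
    rw [hpowk]; exact (merStab h).pow_mem hgen k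
  have hz : δ * ModularGroup.T ^ n * δ⁻¹ ∈ merStab h := by
    rcases Int.natAbs_eq n with h' | h'
    · have : δ * ModularGroup.T ^ n * δ⁻¹ = δ * ModularGroup.T ^ n.natAbs * δ⁻¹ := by
        conv_lhs => rw [h', zpow_natCast]
      rw [this]; exact habs
    · have : δ * ModularGroup.T ^ n * δ⁻¹ = (δ * ModularGroup.T ^ n.natAbs * δ⁻¹)⁻¹ := by
        conv_lhs => rw [h', zpow_neg, zpow_natCast]
        group
      rw [this]; exact (merStab h).inv_mem habs
  rcases hn with hn | hn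
  · have : γ = δ * ModularGroup.T ^ n * δ⁻¹ := by rw [← hn]; group
    rw [this]; exact hz
  · have : γ = -(δ * ModularGroup.T ^ n * δ⁻¹) := by
      have h1 : ModularGroup.T ^ n = -(δ⁻¹ * γ * δ) := by rw [hn, neg_neg]
      rw [h1]
      simp only [mul_neg, neg_mul, neg_neg]
      group
    rw [this]; exact neg_mem_merStab hz

/-- **GOOD**: the multiplier of an `m`-th root of an `m`-divisible unit of `ℂ(X₀(N))` is a good
character. -/
theorem isGood_of_root (hζ : IsPrimitiveRoot ζ m) {u : FC N} (hu : u ≠ 0)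
    (hdiv : ∀ P : Place ℂ (FC N), (m : ℤ) ∣ P.ord u) {h : Mer} (hh : h ≠ 0)
    (hpow : realizeC N u = h ^ m) {ψ : Additive (Gamma0 N) →+ ZMod m} (H : HasMult ζ ψ h) :
    IsGood N ψ := by
  have hpar : ∀ γ : Gamma0 N,
      ((γ : SL(2, ℤ)) : Matrix (Fin 2) (Fin 2) ℤ).trace ^ 2 = 4 → ψ (Additive.ofMul γ) = 0 :=
    fun γ htr => psi_eq_zero_of_mem_merStab hζ hh H γ
      (mem_merStab_of_trace_sq hu hdiv hh hpow γ.2 htr)
  refine ⟨hpar, fun g hg => ?_⟩
  have hg' : IsOfFinOrder (g : SL(2, ℤ)) := by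
    obtain ⟨k, hk, hgk⟩ := isOfFinOrder_iff_pow_eq_one.mp hg
    refine isOfFinOrder_iff_pow_eq_one.mpr ⟨k, hk, ?_⟩
    rw [← Subgroup.coe_pow, hgk, Subgroup.coe_one]
  have habs := Fermat.Agent.S16.LB.Shimura.abs_trace_le_two_of_isOfFinOrder (g : SL(2, ℤ)) hg'
  rw [abs_le] at habs
  by_cases htr : ((g : SL(2, ℤ)) : Matrix (Fin 2) (Fin 2) ℤ).trace ^ 2 = 4
  · exact hpar g htr
  · have hlt : ((g : SL(2, ℤ)) : Matrix (Fin 2) (Fin 2) ℤ).trace ^ 2 < 4 := by
      set t := ((g : SL(2, ℤ)) : Matrix (Fin 2) (Fin 2) ℤ).trace with ht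
      have h1 : -2 ≤ t := habs.1
      have h2 : t ≤ 2 := habs.2
      have h3 : t ≠ 2 := fun h => htr (by rw [h]; norm_num)
      have h4 : t ≠ -2 := fun h => htr (by rw [h]; norm_num)
      have h5 : -1 ≤ t := by omega
      have h6 : t ≤ 1 := by omega
      nlinarith
    obtain ⟨τ, hfix⟩ := exists_fixed_of_trace_sq_lt (g : SL(2, ℤ)) hlt
    exact psi_eq_zero_of_mem_merStab hζ hh H g
      (mem_merStab_of_fixed hu hdiv hh hpow g.2 (H g) hfix)

end Good

/-! ### The instance over `ℂ` -/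

section Inst

variable (N : ℕ) [NeZero N] (m : ℕ) [NeZero m] {ζ : ℂ}

/-- **`ThetaHyp` over `ℂ`**, any modulus `m`, any primitive `m`-th root of unity `ζ`. -/
theorem thetaHypC (hζ : IsPrimitiveRoot ζ m) : ThetaHyp ℂ N m (realC N) ζ where
  sat := by
    intro x hx ⟨f, hf⟩
    obtain ⟨f', hf'⟩ := FieldGen.exists_realizeC_eq_of_pow N
      (Nat.pos_of_ne_zero (NeZero.ne m)) x (fun γ hγ => hx ⟨γ, hγ⟩) f hf.symm
    exact ⟨f', hf'⟩
  inv := fun γ f => compM_realC N γ f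
  ex := fun ψ hψ =>
    Fermat.Agent.GJ.TwEis.exists_isKumDatum_realC N m hζ.pow_eq_one ψ hψ.1
  pdiv := fun ψ h u hψ D Q =>
    Fermat.Agent.GJ.PDiv.dvd_ord_of_datum (fun q f hf => cuspBridge N q f hf) D hψ Q
  good := by
    intro u
    obtain ⟨ψ, h, hh0, hh, H⟩ := Fermat.Agent.GJ.KumFin.exists_mult
      (Fermat.Agent.GJ.KumFin.e1 N) hζ u
    have hu0 : (((u : (FC N)ˣ) : FC N)) ≠ 0 := (u : (FC N)ˣ).ne_zero
    refine ⟨ψ, isGood_of_root hζ hu0 u.2 hh0 hh.symm H, h, hh0, H, hh.symm⟩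

/-- **(T1) over `ℂ`**: the Kummer isomorphism for the function field of `X₀(N)` over `ℂ`. -/
def thetaC (hζ : IsPrimitiveRoot ζ m) : GoodHom N m ≃+ Additive (Kum ℂ (FC N) m) :=
  theta (thetaHypC N m hζ) hζ

end Inst

end Fermat.Agent.GJ.KumTower
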