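/-
GATE-J / J4-TATE, EIGS-Q (helper63): the hypotheses `ThetaHyp` of the generic Kummer isomorphism
hold over `ℚ̄` for EVERY modulus `m ≥ 1`:

  `thetaHypQ : ThetaHyp Kb N m (realQ N) ζ`     (`ζ` a primitive `m`-th root of unity),

hence `thetaQ : GoodHom N m ≃+ Additive (Kum Kb (FK N) m)`, with SPEC, naturality in `m` and Hecke
equivariance given by `theta_eq_iff`, `theta_proj`, `theta_cohT` of `Theta.lean`.

Proof: transfer from `ℂ` (`thetaHypC`) along the base change `bcQ : FK N → FC N`, with helper66's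
any-modulus descent bricks (`descP_raw`, `d1_raw`, `d1conv_raw`, `isPowDesc_raw`) — the pattern of
helper86's `EigDesc.lean`, without primality.
-/
import Mathlib
import Fermat.Agent.GJ.J2.Tower.ThetaC
import Fermat.Agent.GJ.J2.EigDescInst

set_option autoImplicit false
set_option linter.unusedSectionVars false

open UpperHalfPlane Complex CongruenceSubgroup AlgebraicCurve ModularCurve ModularCurve.Period
open scoped MatrixGroups

noncomputable section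

namespace Fermat.Agent.GJ.KumTower

open Fermat.Agent.S24 Fermat.Agent.S24_helper82 Fermat.Agent.GJ.HeckeMer Fermat.Agent.GJ.KumCore
open Fermat.Agent.GJ.KumGroup Fermat.Agent.GJ.EigAsm Fermat.Agent.GJ.Dict
open Fermat.Agent.GJ.EigAsm.Inst

variable (N : ℕ) [NeZero N] (m : ℕ) [NeZero m] {ζ : ℂ}

/-- a Kummer datum over `ℚ̄` is a Kummer datum over `ℂ` (any modulus) -/
theorem isKumDatum_bcQ' {ψ : Additive (Gamma0 N) →+ ZMod m} {h : Mer} {u : FK N}
    (D : IsKumDatum (realQ N) ζ ψ h u) : IsKumDatum (realC N) ζ ψ h (bcQ N u) :=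
  ⟨D.1, D.2.1, by rw [realC_bcQ]; exact D.2.2⟩

/-- **`ThetaHyp` over `ℚ̄`**, any modulus `m`, any primitive `m`-th root of unity `ζ`. -/
theorem thetaHypQ (hζ : IsPrimitiveRoot ζ m) : ThetaHyp Kb N m (realQ N) ζ := by
  have hm : 0 < m := Nat.pos_of_ne_zero (NeZero.ne m)
  have HC := thetaHypC N m hζ
  refine ⟨?_, fun γ f => compM_realQ N γ f, ?_, ?_, ?_⟩
  · -- saturation
    intro x hx ⟨u₀, hu₀⟩
    obtain ⟨v, hv⟩ := HC.sat x hx ⟨bcQ N u₀, by rw [realC_bcQ]; exact hu₀⟩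
    have h1 : bcQ N u₀ = v ^ m := by
      apply (realC N).injective
      rw [realC_bcQ, map_pow, hv, hu₀]
    obtain ⟨v₀, hv₀⟩ := isPowDesc_raw N m hm u₀ v h1
    by_cases hv0 : v₀ = 0
    · refine ⟨0, ?_⟩
      rw [hv0, zero_pow hm.ne'] at hv₀
      rw [hv₀, map_zero] at hu₀
      rw [map_zero]
      exact ((pow_eq_zero_iff hm.ne').mp hu₀.symm).symm
    · have hr0 : realQ N v₀ ≠ 0 := (map_ne_zero (realQ N)).mpr hv0
      -- a primitive `m`-th root of unity in `ℚ̄`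
      haveI : NeZero ((m : ℕ) : ℚ) := ⟨Nat.cast_ne_zero.mpr (NeZero.ne m)⟩
      obtain ⟨ξ, hξ⟩ := HasEnoughRootsOfUnity.exists_primitiveRoot Kb m
      have hξ' : IsPrimitiveRoot (realQ N (algebraMap Kb (FK N) ξ)) m :=
        hξ.map_of_injective ((realQ N).comp (algebraMap Kb (FK N))).injective
      have hmp : x ^ m = (realQ N v₀) ^ m := by rw [← hu₀, hv₀, map_pow]
      have h2 : (x * (realQ N v₀)⁻¹) ^ m = 1 := by
        rw [mul_pow, inv_pow, hmp]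
        exact mul_inv_cancel₀ (pow_ne_zero _ hr0)
      obtain ⟨i, -, hi⟩ := hξ'.eq_pow_of_pow_eq_one h2
      refine ⟨algebraMap Kb (FK N) ξ ^ i * v₀, ?_⟩
      rw [map_mul, map_pow, hi, inv_mul_cancel_right₀ hr0]
  · -- existence
    intro ψ hψ
    obtain ⟨h, u, D⟩ := HC.ex ψ hψ
    obtain ⟨u₀, hu₀, -, v, hv, huv⟩ := descP_raw N m hm u D.ne_zero (HC.pdiv ψ h u hψ D)
    have hrv : realC N v ≠ 0 := (map_ne_zero (realC N)).mpr hv
    refine ⟨h * (realC N v)⁻¹, u₀, mul_ne_zero D.1 (inv_ne_zero hrv), ?_, ?_⟩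
    · intro γ
      rw [map_mul, map_inv₀, compM_realC, D.2.1 γ, mul_assoc]
    · have h1 : realC N u = realQ N u₀ * realC N v ^ m := by
        rw [huv, map_mul, map_pow, realC_bcQ]
      rw [mul_pow, inv_pow, ← D.2.2, h1, mul_assoc, mul_inv_cancel₀ (pow_ne_zero _ hrv), mul_one]
  · -- divisibility
    intro ψ h u hψ D P
    exact d1_raw N m u (HC.pdiv ψ h (bcQ N u) hψ (isKumDatum_bcQ' N m D)) P
  · -- every `m`-divisible unit has a good datum
    intro u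
    have hu0 : (((u : (FK N)ˣ) : FK N)) ≠ 0 := (u : (FK N)ˣ).ne_zero
    have hb0 : bcQ N (((u : (FK N)ˣ) : FK N)) ≠ 0 := (map_ne_zero (bcQ N)).mpr hu0
    have hdiv : ∀ Q : Place ℂ (FC N), (m : ℤ) ∣ Q.ord (bcQ N (((u : (FK N)ˣ) : FK N))) :=
      fun Q => d1conv_raw N m _ u.2 Q
    obtain ⟨ψ, hψ, h, D⟩ := HC.good ⟨Units.mk0 _ hb0, hdiv⟩
    refine ⟨ψ, hψ, h, D.1, D.2.1, ?_⟩
    have := D.2.2
    rw [Units.val_mk0, realC_bcQ] at this
    exact this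

/-- **(T1) over `ℚ̄`**: the Kummer isomorphism for the function field of `X₀(N)` over `ℚ̄`,
any modulus `m`. -/
def thetaQ (hζ : IsPrimitiveRoot ζ m) : GoodHom N m ≃+ Additive (Kum Kb (FK N) m) :=
  theta (thetaHypQ N m hζ) hζ

variable {N m}

/-- **SPEC over `ℚ̄`.** -/
theorem thetaQ_eq_iff (hζ : IsPrimitiveRoot ζ m) (ψ : GoodHom N m)
    (u : pDivUnits Kb (FK N) m) :
    thetaQ N m hζ ψ = Additive.ofMul (Kum.mk u) ↔ IsDatG (realQ N) ζ ψ.1 u :=
  theta_eq_iff (thetaHypQ N m hζ) hζ ψ u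

/-- **(T2) over `ℚ̄`**: naturality in the modulus. -/
theorem thetaQ_proj {d : ℕ} [NeZero d] (hdm : d ∣ m) (hζ : IsPrimitiveRoot ζ m)
    (ψ : GoodHom N m) :
    Additive.ofMul (kumProj hdm (Additive.toMul (thetaQ N m hζ ψ))) =
      thetaQ N d (isPrimitiveRoot_pow_div hdm hζ) (redGood hdm ψ) :=
  theta_proj hdm (thetaHypQ N m hζ) (thetaHypQ N d (isPrimitiveRoot_pow_div hdm hζ)) hζ
    (isPrimitiveRoot_pow_div hdm hζ) ψ

/-- **(T3) over `ℚ̄`**, series form: if `thetaQ ψ = [u]` then the series Hecke norm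
`heckeNormSeries ℓ u` is (the expansion of) an `m`-divisible unit `Tu` of `ℚ̄(X₀(N))` and
`thetaQ (T_ℓ ψ) = [Tu]`. -/
theorem thetaQ_cohT (hhn : HN1Q N) (hζ : IsPrimitiveRoot ζ m) (ψ : GoodHom N m)
    {ℓ : ℕ} [Fact ℓ.Prime] (hℓN : ¬ ℓ ∣ N) (u : pDivUnits Kb (FK N) m)
    (hu : thetaQ N m hζ ψ = Additive.ofMul (Kum.mk u)) :
    ∃ Tu : pDivUnits Kb (FK N) m,
      ((((Tu : (FK N)ˣ) : FK N)) : LaurentSeries Kb)
        = heckeNormSeries ℓ ((((u : (FK N)ˣ) : FK N)) : LaurentSeries Kb) ∧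
      thetaQ N m hζ (cohTGood hℓN ψ) = Additive.ofMul (Kum.mk Tu) := by
  obtain ⟨Tu, hTu1, hTu2⟩ := hhn ℓ hℓN (((u : (FK N)ˣ) : FK N)) (u : (FK N)ˣ).ne_zero
  obtain ⟨Tu', hTu', hθ⟩ := theta_cohT (thetaHypQ N m hζ) hζ ψ hℓN u hu Tu hTu2
  refine ⟨Tu', ?_, hθ⟩
  rw [hTu', hTu1]

end Fermat.Agent.GJ.KumTower
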