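/-
GATE-J / J4-TATE EIGS-Q (c) complements (helper8), on top of helper63's `Tower/ThetaQ.lean`
(`thetaHypQ`, `thetaQ`, `thetaQ_eq_iff`, `thetaQ_proj`, `thetaQ_cohT` live THERE) and my
`Tower/DescM.lean` (`bcKumM`):

* `bcKumM_thetaQ` : the Kummer isomorphisms over `ℚ̄` and over `ℂ` correspond under the base change
  `bcKumM : Kum ℚ̄ (FK N) m ≃* Kum ℂ (FC N) m`;
* `thetaQ_cohT_series` : (T3) with helper43's `hn1Q` plugged in (no hypothesis left).
-/
import Fermat.Agent.GJ.J2.Tower.DescM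
import Fermat.Agent.GJ.J2.Tower.ThetaQ
import Fermat.Agent.GJ.HN.HN1Q

set_option autoImplicit false
set_option linter.unusedSectionVars false

open UpperHalfPlane Complex CongruenceSubgroup AlgebraicCurve ModularCurve
open scoped MatrixGroups

noncomputable section

namespace Fermat.Agent.GJ.KumTower

open Fermat.Agent.S24 Fermat.Agent.S24_helper82 Fermat.Agent.GJ.HeckeMer Fermat.Agent.GJ.KumCore
open Fermat.Agent.GJ.KumGroup Fermat.Agent.GJ.EigAsm Fermat.Agent.GJ.Dict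

attribute [local instance] Fermat.Agent.GJ.EigAsm.algKbC

variable {N : ℕ} [NeZero N] {m : ℕ} [NeZero m] {ζ : ℂ}

/-- a Kummer datum over `ℂ` on a base-changed function is a Kummer datum over `ℚ̄` -/
theorem isKumDatum_of_bcQ {ψ : Additive (Gamma0 N) →+ ZMod m} {h : Mer} {u : FK N}
    (D : IsKumDatum (realC N) ζ ψ h (bcQ N u)) : IsKumDatum (realQ N) ζ ψ h u :=
  ⟨D.1, D.2.1, by rw [← realC_bcQ]; exact D.2.2⟩

/-- compatibility with the base change: `bc ∘ thetaQ = thetaC`. -/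
theorem bcKumM_thetaQ (hζ : IsPrimitiveRoot ζ m) (ψ : GoodHom N m) :
    Additive.ofMul (bcKumM N m (Additive.toMul (thetaQ N m hζ ψ))) = thetaC N m hζ ψ := by
  obtain ⟨u, hu⟩ := Kum.mk_surjective (Additive.toMul (thetaQ N m hζ ψ))
  have hu' : thetaQ N m hζ ψ = Additive.ofMul (Kum.mk u) := by rw [hu]; rfl
  obtain ⟨h, D⟩ := (thetaQ_eq_iff hζ ψ u).mp hu'
  rw [hu', toMul_ofMul, bcKumM_mk]
  symm
  refine (theta_eq_iff (thetaHypC N m hζ) hζ ψ (bcPDivM u)).mpr ⟨h, ?_⟩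
  exact isKumDatum_bcQ' N m D

/-- **(T3)** Hecke equivariance in `q`-series form, unconditional: if `thetaQ ψ = [u]` and
`ℓ ∤ N` is prime, then the series Hecke norm of `u` is (the `q`-expansion of) an `m`-divisible unit
`Tu` of `FK N`, and `thetaQ (T_ℓ ψ) = [Tu]`. -/
theorem thetaQ_cohT_series (hζ : IsPrimitiveRoot ζ m) (ψ : GoodHom N m) {ℓ : ℕ} [Fact ℓ.Prime]
    (hℓN : ¬ ℓ ∣ N) (u : pDivUnits Kb (FK N) m)
    (hu : thetaQ N m hζ ψ = Additive.ofMul (Kum.mk u)) :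
    ∃ Tu : pDivUnits Kb (FK N) m,
      ((((Tu : (FK N)ˣ) : FK N)) : LaurentSeries Kb) =
        heckeNormSeries ℓ ((((u : (FK N)ˣ) : FK N)) : LaurentSeries Kb) ∧
      thetaQ N m hζ (cohTGood hℓN ψ) = Additive.ofMul (Kum.mk Tu) :=
  thetaQ_cohT (Fermat.Agent.GJ.HN.hn1Q N) hζ ψ hℓN u hu

end Fermat.Agent.GJ.KumTower
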