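/-
GATE-J / J4-TATE, THETA-LAT (helper63): the Kummer isomorphism on the LATTICE.

`Λ = Lam N = Hom_par(Γ₀(N), ℤ)` (helper64), `m ≥ 1`, `ζ` a primitive `m`-th root of unity:

  `thetaLat N m hζ : Lam N →+ Additive (Kum Kb (FK N) m)`,   `Φ ↦ thetaQ (Φ mod m)`

is surjective with kernel `m • Λ`, intertwines the lattice Hecke action `latAct` with the series
Hecke norm `heckeNormSeries` (relational clause of `S31Top.TowerGate`, verbatim), and is natural in
the modulus (`thetaLat_trans`, helper8's transition maps `trans`).  Also the compatible family of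
roots of unity `zetaPow p n = exp (2πi / p^n)`.
-/
import Mathlib
import Fermat.Agent.GJ.J2.Tower.TowerQ
import Fermat.Agent.GJ.J2.LatMod
import Fermat.Agent.GJ.J2.LatAct
import Fermat.Agent.GJ.HN.HN1Q

set_option autoImplicit false
set_option linter.unusedSectionVars false

open UpperHalfPlane Complex CongruenceSubgroup AlgebraicCurve ModularCurve ModularCurve.Period
open scoped MatrixGroups

noncomputable section

namespace Fermat.Agent.GJ.KumTower

open Fermat.Agent.S24 Fermat.Agent.S24_helper82 Fermat.Agent.GJ.HeckeMer Fermat.Agent.GJ.KumCore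
open Fermat.Agent.GJ.KumGroup Fermat.Agent.GJ.EigAsm
open Fermat.Agent.GJ.J2.Lat Fermat.Agent.GJ.J2.LatMod Fermat.Agent.GJ.J2.LatAct
open Fermat.Agent.S16_helper49 (cohT cohGen cohGen_of_not_dvd)

/-! ### `parFin = GoodHom` -/

section ParFin

variable (N : ℕ) (m : ℕ)

/-- helper64's `parFin N m` and `GoodHom N m` are the same subgroup -/
theorem parFin_eq_goodHom : parFin N m = GoodHom N m := by
  ext ψ
  exact Iff.rfl

/-- reduction mod `m` of the lattice, with values in `GoodHom N m` -/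
def redGoodLat [NeZero N] : Lam N →+ GoodHom N m where
  toFun Φ := ⟨(redP N m Φ : parFin N m), (redP N m Φ).2⟩
  map_zero' := Subtype.ext (by
    show ((redP N m 0 : parFin N m) : Additive (Gamma0 N) →+ ZMod m) = 0
    rw [map_zero]; rfl)
  map_add' Φ Ψ := Subtype.ext (by
    show ((redP N m (Φ + Ψ) : parFin N m) : Additive (Gamma0 N) →+ ZMod m) = _
    rw [map_add]; rfl)

@[simp] theorem coe_redGoodLat [NeZero N] (Φ : Lam N) :
    ((redGoodLat N m Φ : GoodHom N m) : Additive (Gamma0 N) →+ ZMod m)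
      = ((redP N m Φ : parFin N m) : Additive (Gamma0 N) →+ ZMod m) := rfl

theorem redGoodLat_surjective [NeZero N] [NeZero m] : Function.Surjective (redGoodLat N m) := by
  rintro ⟨ψ, hψ⟩
  obtain ⟨Φ, hΦ⟩ := redP_surjective N m ⟨ψ, hψ⟩
  exact ⟨Φ, Subtype.ext (congrArg Subtype.val hΦ)⟩

theorem redGoodLat_eq_zero_iff [NeZero N] [NeZero m] (Φ : Lam N) :
    redGoodLat N m Φ = 0 ↔ ∃ Ψ : Lam N, Φ = m • Ψ := by
  rw [← mem_ker_redP, AddMonoidHom.mem_ker]
  constructor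
  · intro h
    exact Subtype.ext (congrArg Subtype.val h)
  · intro h
    exact Subtype.ext (congrArg Subtype.val h)

/-- Hecke equivariance of the reduction, `ℓ ∤ N` -/
theorem redGoodLat_latT [NeZero N] [NeZero m] {ℓ : ℕ} [hF : Fact ℓ.Prime]
    (hℓN : ¬ ℓ ∣ N) (Φ : Lam N) :
    redGoodLat N m (latT N (⟨ℓ, hF.out⟩ : Nat.Primes) Φ) = cohTGood hℓN (redGoodLat N m Φ) := by
  apply Subtype.ext
  refine (redP_latT N m (⟨ℓ, hF.out⟩ : Nat.Primes) Φ).trans ?_
  exact DFunLike.congr_fun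
    (cohGen_of_not_dvd (N := N) (ZMod m) (⟨ℓ, hF.out⟩ : Nat.Primes) hℓN) _

/-- naturality of the reduction in the modulus -/
theorem redGood_redGoodLat [NeZero N] {d : ℕ} (hdm : d ∣ m) (Φ : Lam N) :
    redGood hdm (redGoodLat N m Φ) = redGoodLat N d Φ := by
  apply Subtype.ext
  rw [coe_redGood, coe_redGoodLat, coe_redGoodLat]
  exact castHom_comp_redP N m hdm Φ

end ParFin

/-! ### The Kummer map on the lattice -/

section ThetaLat

variable (N : ℕ) [NeZero N] (m : ℕ) [NeZero m] {ζ : ℂ}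

/-- **the Kummer map on the lattice**: `Φ ↦ thetaQ (Φ mod m)` -/
def thetaLat (hζ : IsPrimitiveRoot ζ m) : Lam N →+ Additive (Kum Kb (FK N) m) :=
  ((thetaQ N m hζ : GoodHom N m ≃+ Additive (Kum Kb (FK N) m)) :
    GoodHom N m →+ Additive (Kum Kb (FK N) m)).comp (redGoodLat N m)

theorem thetaLat_apply (hζ : IsPrimitiveRoot ζ m) (Φ : Lam N) :
    thetaLat N m hζ Φ = thetaQ N m hζ (redGoodLat N m Φ) := rfl

theorem thetaLat_surjective (hζ : IsPrimitiveRoot ζ m) :
    Function.Surjective (thetaLat N m hζ) := by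
  intro x
  obtain ⟨ψ, hψ⟩ := (thetaQ N m hζ).surjective x
  obtain ⟨Φ, hΦ⟩ := redGoodLat_surjective N m ψ
  exact ⟨Φ, by rw [thetaLat_apply, hΦ, hψ]⟩

theorem thetaLat_eq_zero_iff (hζ : IsPrimitiveRoot ζ m) (Φ : Lam N) :
    thetaLat N m hζ Φ = 0 ↔ ∃ Ψ : Lam N, Φ = m • Ψ := by
  rw [thetaLat_apply, AddEquiv.map_eq_zero_iff, redGoodLat_eq_zero_iff]

/-- the kernel clause of `TowerGate` -/
theorem thetaLat_eq_zero (hζ : IsPrimitiveRoot ζ m) (Φ : Lam N) (h : thetaLat N m hζ Φ = 0) :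
    ∃ Ψ : Lam N, Φ = m • Ψ :=
  (thetaLat_eq_zero_iff N m hζ Φ).mp h

/-- **the Hecke clause of `TowerGate`**, verbatim, with `act := latAct N S`. -/
theorem thetaLat_latAct_T (hζ : IsPrimitiveRoot ζ m) (S : Set ℕ)
    (ℓ : ℕ) (hℓ : ℓ.Prime) (hℓN : ¬ ℓ ∣ N) (hℓS : ℓ ∉ S) (x : Lam N)
    (u u' : pDivUnits Kb (FK N) m)
    (hu : thetaLat N m hζ x = Additive.ofMul (Kum.mk u))
    (hu' : ((((u' : pDivUnits Kb (FK N) m) : (FK N)ˣ) : FK N) : LaurentSeries Kb) =
      @heckeNormSeries Kb _ ℓ ⟨hℓ.ne_zero⟩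
        ((((u : pDivUnits Kb (FK N) m) : (FK N)ˣ) : FK N) : LaurentSeries Kb)) :
    thetaLat N m hζ (latAct N S (CuspForm.heckeAlgebra.T hℓ hℓN hℓS) x)
      = Additive.ofMul (Kum.mk u') := by
  have hF : Fact ℓ.Prime := ⟨hℓ⟩
  rw [latAct_T, thetaLat_apply]
  have hred : redGoodLat N m (latT N (⟨ℓ, hℓ⟩ : Nat.Primes) x)
      = cohTGood hℓN (redGoodLat N m x) := redGoodLat_latT N m hℓN x
  rw [hred]
  rw [thetaLat_apply] at hu
  obtain ⟨Tu, hTu1, hTu2⟩ := thetaQ_cohT_series hζ (redGoodLat N m x) hℓN u hu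
  rw [hTu2]
  -- `Tu = u'` since they have the same expansion
  have h1 : (((Tu : (FK N)ˣ) : FK N)) = (((u' : (FK N)ˣ) : FK N)) := by
    apply Subtype.ext
    rw [hTu1, hu']
  have h2 : Tu = u' := Subtype.ext (Units.ext h1)
  rw [h2]

/-- **(T2) on the lattice**: the transition map `Kum_m → Kum_d` sends `thetaLat_m` to `thetaLat_d`
(with `ζ_d = ζ_m ^ (m/d)`). -/
theorem thetaLat_trans {d : ℕ} [NeZero d] (hdm : d ∣ m) (hζ : IsPrimitiveRoot ζ m) (Φ : Lam N) :
    Additive.ofMul (trans hdm (Additive.toMul (thetaLat N m hζ Φ)))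
      = thetaLat N d (isPrimitiveRoot_pow_div hdm hζ) Φ := by
  rw [thetaLat_apply, thetaLat_apply, ← redGood_redGoodLat N m hdm Φ]
  exact thetaQ_proj hdm hζ (redGoodLat N m Φ)

end ThetaLat

/-! ### The compatible family of roots of unity -/

section Zeta

/-- `ζ_n = exp (2πi / p^n)` -/
def zetaPow (p n : ℕ) : ℂ := Complex.exp (2 * Real.pi * Complex.I / ((p ^ n : ℕ) : ℂ))

theorem isPrimitiveRoot_zetaPow (p n : ℕ) (hp : p ≠ 0) : IsPrimitiveRoot (zetaPow p n) (p ^ n) :=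
  Complex.isPrimitiveRoot_exp (p ^ n) (pow_ne_zero n hp)

theorem zetaPow_succ_pow (p n : ℕ) (hp : p ≠ 0) : zetaPow p (n + 1) ^ p = zetaPow p n := by
  unfold zetaPow
  rw [← Complex.exp_nat_mul]
  congr 1
  have h1 : ((p ^ n : ℕ) : ℂ) ≠ 0 := by exact_mod_cast pow_ne_zero n hp
  have h2 : (p : ℂ) ≠ 0 := by exact_mod_cast hp
  push_cast
  rw [pow_succ]
  field_simp

/-- the root of unity used by `thetaLat_trans` for `p^n ∣ p^(n+1)` is `zetaPow p n` -/
theorem zetaPow_succ_pow_div (p n : ℕ) (hp : p ≠ 0) :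
    zetaPow p (n + 1) ^ (p ^ (n + 1) / p ^ n) = zetaPow p n := by
  have : p ^ (n + 1) / p ^ n = p := by
    rw [pow_succ, Nat.mul_div_cancel_left _ (Nat.pos_of_ne_zero (pow_ne_zero n hp))]
  rw [this, zetaPow_succ_pow p n hp]

end Zeta

end Fermat.Agent.GJ.KumTower
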