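/-
GATE-J / J4-TATE EIGS-Q (a) (helper8): base change of Kummer groups `ℚ̄ → ℂ` at a GENERAL modulus
`m ≥ 1`, UNCONDITIONAL:

  `bcKumM N m : Kum ℚ̄ (FK N) m ≃* Kum ℂ (FC N) m`,   `bcKumM (mk u) = mk (bc u)`,

compatible with the transition maps of `Tower/Trans.lean`.  Inputs (all landed, all stated for a
general exponent): J2-DESC `Desc.Modular.desc`, `isPow_of_bc_eq_pow` (helper84), PL
`Desc.exists_place_over`, `dvd_ord_bcHom` (helper66), GEN `isGen_bcHom` (helper21),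
KUM-FIN `finite_kum_C` (helper41), T24 `isGen_jF`.
Nothing of `EigDesc.lean` (stated for a prime `p`) is edited; its `bcQ` is reused.
-/
import Fermat.Agent.GJ.J2.Tower.Trans
import Fermat.Agent.GJ.J2.EigDesc
import Fermat.Agent.GJ.J2.KumFinE1
import Fermat.Agent.GJ.Desc.Modular
import Fermat.Agent.GJ.Desc.Places
import Fermat.Agent.GJ.Desc.Gen
import Fermat.Agent.S24_helper62.CuspFibre

set_option autoImplicit false
set_option linter.unusedSectionVars false

noncomputable section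

namespace Fermat.Agent.GJ.KumTower

open AlgebraicCurve ModularCurve Fermat.Agent.GJ.KumGroup Fermat.Agent.GJ.EigAsm
open Fermat.Agent.GJ.Dict Fermat.Agent.S24

attribute [local instance] Fermat.Agent.GJ.EigAsm.algKbC

variable (N : ℕ) [NeZero N] (m : ℕ)

/-- **(D1conv)_m**: `m`-divisibility is preserved by the base change. -/
theorem dvd_ord_bcQ (u₀ : FK N) (h : ∀ P : Place Kb (FK N), (m : ℤ) ∣ P.ord u₀)
    (Q : Place ℂ (FC N)) : (m : ℤ) ∣ Q.ord (bcQ N u₀) :=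
  Fermat.Agent.GJ.Desc.dvd_ord_bcHom Kb ℂ (modularFunctionFieldFull N) m u₀ h Q

/-- **(PL)**: every place of `FK N` extends to `FC N` with `e = 1`. -/
theorem exists_place_over_bcQ (P : Place Kb (FK N)) :
    ∃ Q : Place ℂ (FC N), ∀ f : FK N, Q.ord (bcQ N f) = P.ord f := by
  haveI : IsGen Kb (jF N) := Fermat.Agent.S24_helper62.isGen_jF N
  exact Fermat.Agent.GJ.Desc.exists_place_over Kb ℂ (modularFunctionFieldFull N)
    (jF N) P

/-- **(D1)_m**: `m`-divisibility descends along the base change. -/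
theorem dvd_ord_of_bcQ (u₀ : FK N) (h : ∀ Q : Place ℂ (FC N), (m : ℤ) ∣ Q.ord (bcQ N u₀))
    (P : Place Kb (FK N)) : (m : ℤ) ∣ P.ord u₀ := by
  obtain ⟨Q, hQ⟩ := exists_place_over_bcQ N P
  rw [← hQ u₀]
  exact h Q


/-- **(LD-d)_m**: a function over `ℚ̄` that becomes an `m`-th power over `ℂ` is one over `ℚ̄`. -/
theorem isPow_of_bcQ_eq_pow (hm : 0 < m) (u₀ : FK N) (v : FC N) (h : bcQ N u₀ = v ^ m) :
    ∃ v₀ : FK N, u₀ = v₀ ^ m :=
  Fermat.Agent.GJ.Desc.Modular.isPow_of_bc_eq_pow N m hm u₀ v h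

/-- **(DESC)_m**: every `m`-divisible unit over `ℂ` is, modulo `m`-th powers, the base change of
an `m`-divisible unit over `ℚ̄`. -/
theorem exists_bcQ_eq_mul_pow [NeZero m] (u : pDivUnits ℂ (FC N) m) :
    ∃ u₀ : pDivUnits Kb (FK N) m, ∃ w : (FC N)ˣ,
      Units.map (bcQ N : FK N →* FC N) (u₀ : (FK N)ˣ) = (u : (FC N)ˣ) * w ^ m := by
  haveI : CharZero Kb := charZero_of_injective_algebraMap (algebraMap ℚ Kb).injective
  haveI : IsGen Kb (jF N) := Fermat.Agent.S24_helper62.isGen_jF N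
  haveI : IsGen ℂ (bcQ N (jF N)) :=
    Fermat.Agent.GJ.Desc.isGen_bcHom Kb ℂ (modularFunctionFieldFull N) (jF N)
  exact Fermat.Agent.GJ.Desc.Modular.desc N m (NeZero.pos m) (bcQ N (jF N))
    (exists_place_over_bcQ N) (Fermat.Agent.GJ.KumFin.finite_kum_C N m) u

variable {N m}

/-- base change on `m`-divisible units -/
def bcPDivM : pDivUnits Kb (FK N) m →* pDivUnits ℂ (FC N) m :=
  MonoidHom.codRestrict ((Units.map (bcQ N : FK N →* FC N)).comp (pDivUnits Kb (FK N) m).subtype)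
    (pDivUnits ℂ (FC N) m) (fun u => dvd_ord_bcQ N m ((u : (FK N)ˣ) : FK N) u.2)

theorem coe_bcPDivM (u : pDivUnits Kb (FK N) m) :
    (((bcPDivM u : pDivUnits ℂ (FC N) m) : (FC N)ˣ) : FC N) = bcQ N ((u : (FK N)ˣ) : FK N) :=
  rfl

theorem bcUnits_mem (u : (FK N)ˣ) (hu : u ∈ pDivUnits Kb (FK N) m) :
    Units.map (bcQ N : FK N →* FC N) u ∈ pDivUnits ℂ (FC N) m :=
  dvd_ord_bcQ N m (u : FK N) hu

variable (N m)

/-- base change on Kummer groups at modulus `m` -/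
def bcKumHom : Kum Kb (FK N) m →* Kum ℂ (FC N) m :=
  kumMapOf m (Units.map (bcQ N : FK N →* FC N)) bcUnits_mem

variable {N m}

theorem bcKumHom_mk (u : pDivUnits Kb (FK N) m) :
    bcKumHom N m (Kum.mk u) = Kum.mk (bcPDivM u) := rfl

variable (N m)

theorem bcKumHom_injective (hm : 0 < m) : Function.Injective (bcKumHom N m) := by
  rw [injective_iff_map_eq_one]
  intro x hx
  obtain ⟨u, rfl⟩ := Kum.mk_surjective x
  rw [bcKumHom_mk] at hx
  have h : Kum.mk (1 : pDivUnits ℂ (FC N) m) = Kum.mk (bcPDivM u) := by rw [hx, map_one]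
  rw [Kum.mk_eq_mk_iff] at h
  obtain ⟨w, hw⟩ := h
  have hw' : bcQ N ((u : (FK N)ˣ) : FK N) = (w : FC N) ^ m := by
    rw [← coe_bcPDivM, hw]
    simp
  obtain ⟨v₀, hv₀⟩ := isPow_of_bcQ_eq_pow N m hm _ _ hw'
  have hv0 : v₀ ≠ 0 := by
    rintro rfl
    rw [zero_pow hm.ne'] at hv₀
    exact (u : (FK N)ˣ).ne_zero hv₀
  have h2 : Kum.mk (1 : pDivUnits Kb (FK N) m) = Kum.mk u := by
    rw [Kum.mk_eq_mk_iff]
    refine ⟨Units.mk0 v₀ hv0, ?_⟩
    apply Units.ext
    rw [hv₀]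
    simp
  rw [← h2, map_one]

theorem bcKumHom_surjective [NeZero m] : Function.Surjective (bcKumHom N m) := by
  intro y
  obtain ⟨u, rfl⟩ := Kum.mk_surjective y
  obtain ⟨u₀, w, hw⟩ := exists_bcQ_eq_mul_pow N m u
  refine ⟨Kum.mk u₀, ?_⟩
  rw [bcKumHom_mk, eq_comm, Kum.mk_eq_mk_iff]
  exact ⟨w, hw⟩

/-- **EIGS-Q (a)**: base change `ℚ̄ → ℂ` is an isomorphism of Kummer groups at every modulus. -/
def bcKumM [NeZero m] : Kum Kb (FK N) m ≃* Kum ℂ (FC N) m :=
  MulEquiv.ofBijective (bcKumHom N m)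
    ⟨bcKumHom_injective N m (NeZero.pos m), bcKumHom_surjective N m⟩

variable {N m}

@[simp]
theorem bcKumM_mk [NeZero m] (u : pDivUnits Kb (FK N) m) :
    bcKumM N m (Kum.mk u) = Kum.mk (bcPDivM u) := rfl

theorem bcKumM_apply [NeZero m] (x : Kum Kb (FK N) m) : bcKumM N m x = bcKumHom N m x := rfl

/-- base change commutes with the transition maps -/
theorem trans_bcKumHom {d : ℕ} (h : d ∣ m) (x : Kum Kb (FK N) m) :
    trans h (bcKumHom N m x) = bcKumHom N d (trans h x) :=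
  trans_kumMapOf h _ _ _ x

theorem trans_bcKumM {d : ℕ} [NeZero m] [NeZero d] (h : d ∣ m) (x : Kum Kb (FK N) m) :
    trans h (bcKumM N m x) = bcKumM N d (trans h x) :=
  trans_bcKumHom h x

/-- finiteness of the Kummer group over `ℚ̄` at every modulus -/
theorem finite_kum_Q (N : ℕ) [NeZero N] (m : ℕ) [NeZero m] : Finite (Kum Kb (FK N) m) := by
  haveI := Fermat.Agent.GJ.KumFin.finite_kum_C N m
  exact Finite.of_injective _ (bcKumHom_injective N m (NeZero.pos m))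

end Fermat.Agent.GJ.KumTower
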