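import Fermat.Agent.GJ.J2.Tower.Theta
import Fermat.Agent.GJ.J2.PDivC
import Fermat.Agent.GJ.J2.Dict.CuspOrdC
import Fermat.Agent.GJ.J2.KumFinE1
import Fermat.Agent.S21_helper65.Parabolic
import Fermat.Agent.S16.LB.ShimuraClass

/-!
# GATE-J / J4-TATE, EIGS-C: the `good` field of `ThetaHyp` over `ℂ` (helper49)

Converse of (P) `PDivC`: if `realizeC N u = h ^ m` and `u` is `m`-divisible at every place of
`ℂ(X₀(N))`, then `h` is invariant under every elliptic and every parabolic element of `Γ₀(N)`.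
Hence the character of any Kummer datum with `m`-divisible `u`-part is good, and every
`m`-divisible unit has a good datum (`exists_good_datum` = `ThetaHyp.good` over `ℂ`).
Any modulus `m ≠ 0`.
-/

set_option autoImplicit false

noncomputable section

namespace Fermat.Agent.GJ.KumTower.GoodC

open UpperHalfPlane AlgebraicCurve CongruenceSubgroup MulAction ModularCurve.Period
open Fermat.Agent.S24 Fermat.Agent.S24_helper82
open Fermat.Agent.GJ.Dict Fermat.Agent.GJ.Dict.Cusp Fermat.Agent.GJ.Root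
open Fermat.Agent.GJ.KumCore Fermat.Agent.GJ.HeckeMer Fermat.Agent.GJ.EigAsm
open Fermat.Agent.GJ.KumGroup
open scoped MatrixGroups

variable {N : ℕ} [NeZero N]

/-! ### The elliptic points -/

omit [NeZero N] in
/-- every place has a uniformiser -/
theorem exists_ord_eq_one (P : Place ℂ (FC N)) : ∃ f : FC N, f ≠ 0 ∧ P.ord f = 1 := by
  obtain ⟨ϖ, hirr⟩ := IsDiscreteValuationRing.exists_irreducible P.toValuationSubring
  have h1 := P.ord_coe_irreducible hirr
  refine ⟨(ϖ : FC N), ?_, h1⟩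
  rintro h0
  rw [h0, P.ord_zero] at h1
  exact absurd h1 (by norm_num)

/-- the multiplier of a stabiliser element is an `e`-th root of unity, `e` the ramification
index -/
theorem mult_zpow_eAt {γ : SL(2, ℤ)} (hγ : γ ∈ Gamma0 N) {τ : ℍ} (hfix : γ • τ = τ) :
    mult γ τ ^ (eAt N τ) = 1 := by
  obtain ⟨f, hf, hf1⟩ := exists_ord_eq_one (placeAt N τ)
  have hr : realizeC N f ≠ 0 := (map_ne_zero (realizeC N)).mpr hf
  have hinv : compM γ (realizeC N f) = algebraMap ℂ Mer 1 * realizeC N f := by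
    rw [map_one, one_mul]
    exact compM_realizeC_of_mem_Gamma0 N hγ f
  have h1 := eq_mult_zpow_of_fixed hfix hr hinv
  rw [ordM_realizeC N τ hf, hf1, mul_one] at h1
  exact h1.symm

/-- **(R-ell), converse**: an `m`-th root of `realizeC N u` is invariant under the stabiliser of
`τ` in `Γ₀(N)` as soon as `m` divides the order of `u` at the place of `τ`. -/
theorem compM_eq_of_fixed {m : ℕ} (hm : 0 < m) {u : FC N} (hu : u ≠ 0) {h : Mer}
    (hpow : realizeC N u = h ^ m) {γ : SL(2, ℤ)} (hγ : γ ∈ Gamma0 N) {τ : ℍ}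
    (hfix : γ • τ = τ) (hdiv : (m : ℤ) ∣ (placeAt N τ).ord u) : compM γ h = h := by
  have hr : realizeC N u ≠ 0 := (map_ne_zero (realizeC N)).mpr hu
  have hh : h ≠ 0 := by
    rintro rfl
    rw [zero_pow hm.ne'] at hpow
    exact hr hpow
  have hinv : compM γ h ^ m = h ^ m := by
    rw [← map_pow, ← hpow]
    exact compM_realizeC_of_mem_Gamma0 N hγ u
  obtain ⟨c, -, hc⟩ := eq_smul_of_pow_eq hm (compM γ h) h hh hinv
  have h1 := eq_mult_zpow_of_fixed hfix hh hc
  obtain ⟨D, hD⟩ := hdiv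
  have h2 := ordM_realizeC N τ hu
  rw [hpow, ordM_pow, hD] at h2
  have hm' : (m : ℤ) ≠ 0 := by exact_mod_cast hm.ne'
  have h3 : ordM τ h = eAt N τ * D := by
    apply mul_left_cancel₀ hm'
    rw [h2]
    ring
  rw [h3, zpow_mul, mult_zpow_eAt hγ hfix, one_zpow] at h1
  rw [hc, h1, map_one, one_mul]

/-! ### Fixed points of elliptic elements -/

theorem fixed_key (a b c d ε s : ℝ) (hdet : a * d - b * c = 1) (hc : c ≠ 0) (hε : ε ^ 2 = 1)
    (hs2 : s ^ 2 = 4 - (a + d) ^ 2) :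
    let z : ℂ := ((a - d : ℝ) + (ε * s : ℝ) * Complex.I) / (2 * (c : ℝ))
    (a : ℂ) * z + b = z * (c * z + d) := by
  intro z
  have hcC : (c : ℂ) ≠ 0 := by exact_mod_cast hc
  have hdetC : (a : ℂ) * d - b * c = 1 := by exact_mod_cast hdet
  have hεC : (ε : ℂ) ^ 2 = 1 := by exact_mod_cast hε
  have hsC : (s : ℂ) ^ 2 = 4 - ((a : ℂ) + d) ^ 2 := by exact_mod_cast hs2
  have hI : Complex.I ^ 2 = -1 := Complex.I_sq
  simp only [z]
  push_cast
  field_simp
  linear_combination (-(ε:ℂ)^2 * (s:ℂ)^2) * hI + (s:ℂ)^2 * hεC + hsC - 4 * hdetC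

/-- an element of `SL(2, ℤ)` with `trace² < 4` has a fixed point in the upper half plane -/
theorem exists_fixed_of_trace_sq_lt (g : SL(2, ℤ))
    (htr : (g : Matrix (Fin 2) (Fin 2) ℤ).trace ^ 2 < 4) : ∃ τ : ℍ, g • τ = τ := by
  have hdet : g 0 0 * g 1 1 - g 0 1 * g 1 0 = 1 := by
    have := g.det_coe
    rw [Matrix.det_fin_two] at this
    exact this
  rw [Matrix.trace_fin_two] at htr
  have hc : g 1 0 ≠ 0 := by
    intro hc0
    rw [hc0, mul_zero, sub_zero] at hdet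
    rcases Int.eq_one_or_neg_one_of_mul_eq_one' hdet with ⟨ha, hd⟩ | ⟨ha, hd⟩ <;>
      rw [ha, hd] at htr <;> norm_num at htr
  obtain ⟨ε, hε2, hεc⟩ : ∃ ε : ℝ, ε ^ 2 = 1 ∧ 0 < ε * ((g 1 0 : ℤ) : ℝ) := by
    rcases lt_or_gt_of_ne hc with h | h
    · refine ⟨-1, by norm_num, ?_⟩
      have : ((g 1 0 : ℤ) : ℝ) < 0 := by exact_mod_cast h
      linarith
    · refine ⟨1, by norm_num, ?_⟩
      have : (0 : ℝ) < ((g 1 0 : ℤ) : ℝ) := by exact_mod_cast h
      linarith
  set a : ℝ := ((g 0 0 : ℤ) : ℝ) with ha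
  set b : ℝ := ((g 0 1 : ℤ) : ℝ) with hb
  set c : ℝ := ((g 1 0 : ℤ) : ℝ) with hc'
  set d : ℝ := ((g 1 1 : ℤ) : ℝ) with hd
  have hdetR : a * d - b * c = 1 := by
    rw [ha, hb, hc', hd]
    exact_mod_cast hdet
  have htrR : (a + d) ^ 2 < 4 := by
    rw [ha, hd]
    exact_mod_cast htr
  set s : ℝ := Real.sqrt (4 - (a + d) ^ 2) with hs
  have hs0 : 0 < s := Real.sqrt_pos.mpr (by linarith)
  have hs2 : s ^ 2 = 4 - (a + d) ^ 2 := Real.sq_sqrt (by linarith)
  have hcR : c ≠ 0 := by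
    rw [hc']
    exact_mod_cast hc
  set z : ℂ := ((a - d : ℝ) + (ε * s : ℝ) * Complex.I) / (2 * (c : ℝ)) with hz
  have hzim : z.im = s * (ε * c) / (2 * c ^ 2) := by
    have h1 : z = (((a - d) / (2 * c) : ℝ) : ℂ) + ((ε * s / (2 * c) : ℝ) : ℂ) * Complex.I := by
      rw [hz]
      push_cast
      field_simp
    rw [h1]
    simp only [Complex.add_im, Complex.ofReal_im, Complex.mul_im, Complex.ofReal_re,
      Complex.I_im, Complex.I_re, mul_one, mul_zero, zero_add, add_zero]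
    field_simp
  have hzpos : 0 < z.im := by
    rw [hzim]
    positivity
  have key := fixed_key a b c d ε s hdetR hcR hε2 hs2
  simp only at key
  rw [← hz] at key
  refine ⟨⟨z, hzpos⟩, ?_⟩
  apply UpperHalfPlane.ext
  rw [coe_specialLinearGroup_apply]
  have hden : ((c : ℂ) * z + d) ≠ 0 := by
    intro h0
    have h1 := congrArg Complex.im h0
    simp only [Complex.add_im, Complex.mul_im, Complex.ofReal_re, Complex.ofReal_im, zero_mul,
      add_zero, Complex.zero_im] at h1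
    rcases mul_eq_zero.mp h1 with h | h
    · exact hcR h
    · exact hzpos.ne' h
  show (((algebraMap ℤ ℝ (g 0 0) : ℝ) : ℂ) * z + ((algebraMap ℤ ℝ (g 0 1) : ℝ) : ℂ)) /
      (((algebraMap ℤ ℝ (g 1 0) : ℝ) : ℂ) * z + ((algebraMap ℤ ℝ (g 1 1) : ℝ) : ℂ)) = z
  simp only [algebraMap_int_eq, Int.coe_castRingHom]
  rw [div_eq_iff hden, key]

/-! ### The invariance group of a meromorphic function -/

theorem compM_inv_eq {x : SL(2, ℤ)} {h : Mer} (hx : compM x h = h) : compM x⁻¹ h = h := by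
  have h1 := compM_mul x x⁻¹ h
  rw [mul_inv_cancel, compM_one, hx] at h1
  exact h1.symm

theorem compM_pow_eq {x : SL(2, ℤ)} {h : Mer} (hx : compM x h = h) (n : ℕ) :
    compM (x ^ n) h = h := by
  induction n with
  | zero => rw [pow_zero, compM_one]
  | succ n ih => rw [pow_succ, compM_mul, ih, hx]

theorem compM_zpow_eq {x : SL(2, ℤ)} {h : Mer} (hx : compM x h = h) (n : ℤ) :
    compM (x ^ n) h = h := by
  cases n with
  | ofNat n =>
    rw [Int.ofNat_eq_natCast, zpow_natCast]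
    exact compM_pow_eq hx n
  | negSucc n =>
    rw [zpow_negSucc]
    exact compM_inv_eq (compM_pow_eq hx _)

theorem compM_neg (x : SL(2, ℤ)) (h : Mer) : compM (-x) h = compM x h := by
  rw [← neg_one_mul, compM_mul, compM_neg_one]

omit [NeZero N] in
theorem neg_mem_Gamma0 {x : SL(2, ℤ)} (hx : x ∈ Gamma0 N) : -x ∈ Gamma0 N := by
  rw [Gamma0_mem] at hx ⊢
  rw [Matrix.SpecialLinearGroup.coe_neg, Matrix.neg_apply, Int.cast_neg, hx, neg_zero]

omit [NeZero N] in
theorem smul_eq_of_conj_mem {s g : SL(2, ℤ)} (h : g⁻¹ * s * g ∈ Gamma0 N) :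
    s • (g : I0 N) = (g : I0 N) := by
  rw [MulAction.Quotient.smul_mk, QuotientGroup.eq, smul_eq_mul]
  have := inv_mem h
  simpa [mul_assoc] using this

/-- an upper triangular element of `SL(2, ℤ)` is `± T ^ n` -/
theorem eq_T_zpow_or_neg_of_lower_zero (g : SL(2, ℤ)) (hc : g 1 0 = 0) :
    ∃ n : ℤ, g = ModularGroup.T ^ n ∨ g = -ModularGroup.T ^ n := by
  have hdet : g 0 0 * g 1 1 - g 0 1 * g 1 0 = 1 := by
    have := g.det_coe
    rw [Matrix.det_fin_two] at this
    exact this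
  rw [hc, mul_zero, sub_zero] at hdet
  rcases Int.eq_one_or_neg_one_of_mul_eq_one' hdet with ⟨ha, hd⟩ | ⟨ha, hd⟩
  · refine ⟨g 0 1, Or.inl ?_⟩
    ext i j
    rw [ModularGroup.coe_T_zpow]
    fin_cases i <;> fin_cases j <;> simp [ha, hd, hc]
  · refine ⟨-(g 0 1), Or.inr ?_⟩
    ext i j
    rw [Matrix.SpecialLinearGroup.coe_neg, ModularGroup.coe_T_zpow]
    fin_cases i <;> fin_cases j <;> simp [ha, hd, hc]

/-! ### The parabolic elements -/

/-- **(R-par), converse**: an `m`-th root of `realizeC N u` is invariant under every conjugate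
`δ T^n δ⁻¹ ∈ Γ₀(N)` as soon as `m` divides the order of `u` at the cusp places. -/
theorem compM_conj_T_zpow_eq {m : ℕ} (hm : 0 < m) {u : FC N} (hu : u ≠ 0) {h : Mer}
    (hpow : realizeC N u = h ^ m) (hdiv : ∀ q : I0 N, (m : ℤ) ∣ (cuspPlaceC N q).ord u)
    (δ : SL(2, ℤ)) (n : ℤ) (hmem : δ * ModularGroup.T ^ n * δ⁻¹ ∈ Gamma0 N) :
    compM (δ * ModularGroup.T ^ n * δ⁻¹) h = h := by
  have hr : realizeC N u ≠ 0 := (map_ne_zero (realizeC N)).mpr hu
  have hh : h ≠ 0 := by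
    rintro rfl
    rw [zero_pow hm.ne'] at hpow
    exact hr hpow
  set q : I0 N := ((δ⁻¹ : SL(2, ℤ)) : I0 N) with hq
  have hfixn : ModularGroup.T ^ n • q = q := by
    apply smul_eq_of_conj_mem
    rwa [inv_inv]
  have hw0 : 0 < widthC N q := widthC_pos N q
  have hwn : (widthC N q : ℤ) ∣ n := by
    rw [Int.natCast_dvd, ← T_pow_smul_eq_iff]
    rcases Int.natAbs_eq n with h1 | h1
    · rw [← zpow_natCast, ← h1]
      exact hfixn
    · have e : ModularGroup.T ^ ((n.natAbs : ℕ) : ℤ) = (ModularGroup.T ^ n)⁻¹ := by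
        rw [← zpow_neg]
        congr 1
        omega
      rw [← zpow_natCast, e, inv_smul_eq_iff]
      exact hfixn.symm
  obtain ⟨j, hj⟩ := hwn
  have hPmem : δ * ModularGroup.T ^ widthC N q * δ⁻¹ ∈ Gamma0 N := by
    have h1 := conj_mem_Gamma0_of_smul_eq N (T_pow_widthC_smul N q)
    rwa [inv_inv] at h1
  have hP : compM (δ * ModularGroup.T ^ widthC N q * δ⁻¹) h = h := by
    have hepos := cuspMultC_pos N q
    set e : ℕ := (cuspMultC N q).toNat with he
    have hee : (e : ℤ) = cuspMultC N q := Int.toNat_of_nonneg hepos.le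
    have he0 : 0 < e := by
      have : (0 : ℤ) < (e : ℤ) := by rw [hee]; exact hepos
      exact_mod_cast this
    have hwN : widthC N q * e = N := by
      have h1 := cuspMultC_mul_widthC N q
      have : ((widthC N q * e : ℕ) : ℤ) = (N : ℤ) := by
        push_cast
        rw [hee, mul_comm]
        exact h1
      exact_mod_cast this
    have hT : compM (δ * ModularGroup.T ^ widthC N q * δ⁻¹) (h ^ m) = h ^ m := by
      rw [← hpow]
      exact compM_realizeC_of_mem_Gamma0 N hPmem u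
    have hord : MerOrdAtImInfty ((widthC N q * e : ℕ) : ℝ) (compM δ (h ^ m))
        (cuspMultC N q * (cuspPlaceC N q).ord u) := by
      have h1 := merOrdAtImInfty_SigC N δ⁻¹ u hu
      rw [SigC_apply, inv_inv, hpow] at h1
      rw [hwN]
      exact h1
    obtain ⟨n', hn', hc⟩ := compM_conj_T_pow_of_merOrd hm hw0 he0 hh δ hord hT
    have he' : (e : ℤ) ≠ 0 := by exact_mod_cast he0.ne'
    have hn'' : n' = (cuspPlaceC N q).ord u := by
      rw [← hee] at hn'
      exact (mul_left_cancel₀ he' hn').symm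
    have hdvd : (m : ℤ) ∣ n' := by
      rw [hn'']
      exact hdiv q
    rw [hc, (exp_two_pi_I_div_eq_one_iff hm n').mpr hdvd, map_one, one_mul]
  have hconj : δ * ModularGroup.T ^ n * δ⁻¹
      = (δ * ModularGroup.T ^ widthC N q * δ⁻¹) ^ j := by
    rw [conj_zpow, hj, zpow_mul, zpow_natCast]
  rw [hconj]
  exact compM_zpow_eq hP j

/-- **(R-par), converse**, for every element of `Γ₀(N)` with `trace² = 4`. -/
theorem compM_eq_of_parabolic {m : ℕ} (hm : 0 < m) {u : FC N} (hu : u ≠ 0) {h : Mer}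
    (hpow : realizeC N u = h ^ m) (hdiv : ∀ q : I0 N, (m : ℤ) ∣ (cuspPlaceC N q).ord u)
    {γ : SL(2, ℤ)} (hγ : γ ∈ Gamma0 N)
    (htr : (γ : Matrix (Fin 2) (Fin 2) ℤ).trace ^ 2 = 4) : compM γ h = h := by
  obtain ⟨δ, hδ⟩ := Fermat.Agent.S21_helper65.exists_conj_upper γ htr
  obtain ⟨n, hn | hn⟩ := eq_T_zpow_or_neg_of_lower_zero (δ⁻¹ * γ * δ) hδ
  · have e : γ = δ * ModularGroup.T ^ n * δ⁻¹ := by
      rw [← hn]
      group
    rw [e]
    apply compM_conj_T_zpow_eq hm hu hpow hdiv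
    rw [← e]
    exact hγ
  · have e : γ = -(δ * ModularGroup.T ^ n * δ⁻¹) := by
      calc γ = δ * (δ⁻¹ * γ * δ) * δ⁻¹ := by group
        _ = δ * (-ModularGroup.T ^ n) * δ⁻¹ := by rw [hn]
        _ = -(δ * ModularGroup.T ^ n * δ⁻¹) := by rw [mul_neg, neg_mul]
    rw [e, compM_neg]
    apply compM_conj_T_zpow_eq hm hu hpow hdiv
    have h1 := neg_mem_Gamma0 hγ
    rw [e, neg_neg] at h1
    exact h1

/-- an `m`-th root of `realizeC N u`, `u` an `m`-divisible function, is invariant under the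
elements of finite order of `Γ₀(N)` -/
theorem compM_eq_of_isOfFinOrder {m : ℕ} (hm : 0 < m) {u : FC N} (hu : u ≠ 0) {h : Mer}
    (hpow : realizeC N u = h ^ m) (hdiv : ∀ Q : Place ℂ (FC N), (m : ℤ) ∣ Q.ord u)
    {γ : SL(2, ℤ)} (hγ : γ ∈ Gamma0 N) (hfin : IsOfFinOrder γ) : compM γ h = h := by
  have h1 := Fermat.Agent.S16.LB.Shimura.abs_trace_le_two_of_isOfFinOrder γ hfin
  by_cases htr : (γ : Matrix (Fin 2) (Fin 2) ℤ).trace ^ 2 = 4
  · exact compM_eq_of_parabolic hm hu hpow (fun q => hdiv _) hγ htr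
  · have hlt : (γ : Matrix (Fin 2) (Fin 2) ℤ).trace ^ 2 < 4 := by
      rw [abs_le] at h1
      obtain ⟨h2, h3⟩ := h1
      have h4 : (γ : Matrix (Fin 2) (Fin 2) ℤ).trace ^ 2 ≤ 4 := by nlinarith
      exact lt_of_le_of_ne h4 htr
    obtain ⟨τ, hτ⟩ := exists_fixed_of_trace_sq_lt γ hlt
    exact compM_eq_of_fixed hm hu hpow hγ hτ (hdiv _)

/-! ### Goodness -/

/-- **(GOOD)** converse of (P): the character of a Kummer datum whose `u`-part is `m`-divisible
is good (parabolic, and trivial on the elements of finite order). Any modulus `m ≠ 0`. -/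
theorem isGood_of_datum {m : ℕ} [NeZero m] {ζ : ℂ} (hζ : IsPrimitiveRoot ζ m)
    {ψ : Additive (Gamma0 N) →+ ZMod m} {h : Mer} {u : FC N}
    (D : IsKumDatum (realC N) ζ ψ h u) (hdiv : ∀ Q : Place ℂ (FC N), (m : ℤ) ∣ Q.ord u) :
    IsGood N ψ := by
  have hm : 0 < m := Nat.pos_of_ne_zero (NeZero.ne m)
  have hu : u ≠ 0 := D.ne_zero
  have hpow : realizeC N u = h ^ m := D.2.2
  have key : ∀ γ : Gamma0 N, compM (γ : SL(2, ℤ)) h = h → ψ (Additive.ofMul γ) = 0 := by
    intro γ hγ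
    have h1 := D.2.1 γ
    rw [hγ] at h1
    have h2 : algebraMap ℂ Mer 1 * h
        = algebraMap ℂ Mer (zmodPow ζ (ψ (Additive.ofMul γ))) * h := by
      rw [map_one, one_mul]
      exact h1
    have h3 := algebraMap_C_injective (mul_right_cancel₀ D.1 h2)
    exact (zmodPow_eq_one_iff hζ _).mp h3.symm
  refine ⟨fun γ htr => key γ (compM_eq_of_parabolic hm hu hpow (fun q => hdiv _) γ.2 htr),
    fun g hg => key g (compM_eq_of_isOfFinOrder hm hu hpow hdiv g.2 ?_)⟩
  exact (Subgroup.subtype (Gamma0 N)).isOfFinOrder hg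

/-- **`ThetaHyp.good` over `ℂ`**: every `m`-divisible unit of `ℂ(X₀(N))` is the `u`-part of a
Kummer datum of a good character. -/
theorem exists_good_datum {m : ℕ} [NeZero m] {ζ : ℂ} (hζ : IsPrimitiveRoot ζ m)
    (u : pDivUnits ℂ (FC N) m) :
    ∃ ψ : Additive (Gamma0 N) →+ ZMod m, IsGood N ψ ∧ IsDatG (realC N) ζ ψ u := by
  obtain ⟨ψ, h, hh0, hh, hψ⟩ := Fermat.Agent.GJ.KumFin.exists_mult
    (Fermat.Agent.GJ.KumFin.e1 N) hζ u
  have D : IsKumDatum (realC N) ζ ψ h (((u : (FC N)ˣ) : FC N)) := ⟨hh0, hψ, hh.symm⟩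
  exact ⟨ψ, isGood_of_datum hζ D (fun Q => u.2 Q), h, D⟩

end Fermat.Agent.GJ.KumTower.GoodC
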