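/-
GATE-J / J4-TATE (helper63): the J2 tower gates are THEOREMS.

  `towerGateC N S p hp : Tate.S30Top.TowerGateC N S p`     (gate of `s30_of_gates`)
  `towerGate  N S p hp : Tate.S31Top.TowerGate N S p`      (gate of `s31_of_gates`)

with `Λ := Lam N` (helper64), `act := latAct N S`, `Θ n := thetaLat N (p^n) ζ_n`,
`ζ_n = exp (2πi / p^n)` (`ThetaLat.lean`).
-/
import Mathlib
import Fermat.Agent.GJ.J2.Tower.ThetaLat
import Fermat.Agent.GJ.Tate.S30Top

set_option autoImplicit false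
set_option linter.unusedSectionVars false

noncomputable section

namespace Fermat.Agent.GJ.KumTower

open Fermat.Agent.GJ.KumGroup Fermat.Agent.GJ.EigAsm
open Fermat.Agent.GJ.J2.Lat Fermat.Agent.GJ.J2.LatAct

/-- `thetaLat` only depends on the root of unity -/
theorem thetaLat_congr (N : ℕ) [NeZero N] (m : ℕ) [NeZero m] {ζ ζ' : ℂ} (h : ζ = ζ')
    (hζ : IsPrimitiveRoot ζ m) (hζ' : IsPrimitiveRoot ζ' m) :
    KumTower.thetaLat N m hζ = KumTower.thetaLat N m hζ' := by
  subst h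
  rfl

/-- **the tower gate of `s30_of_gates`** -/
theorem towerGateC (N : ℕ) [NeZero N] (S : Finset ℕ) (p : ℕ) (hp : p ≠ 0) :
    Fermat.Agent.GJ.Tate.S30Top.TowerGateC N S p := by
  have : NeZero p := ⟨hp⟩
  refine ⟨Lam N, inferInstance, inferInstance, inferInstance, latAct N (↑S : Set ℕ),
    latAct_injective N _,
    fun n => KumTower.thetaLat N (p ^ n) (isPrimitiveRoot_zetaPow p n hp), ?_, ?_⟩
  · intro n
    refine ⟨thetaLat_surjective N (p ^ n) _, ?_, ?_⟩
    · intro x hx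
      exact thetaLat_eq_zero N (p ^ n) _ x hx
    · intro ℓ hℓ hℓN hℓS x u u' hu hu'
      exact thetaLat_latAct_T N (p ^ n) _ (↑S : Set ℕ) ℓ hℓ hℓN hℓS x u u' hu hu'
  · intro n x
    rw [thetaLat_trans N (p ^ (n + 1)) (pow_dvd_pow p (Nat.le_succ n))
      (isPrimitiveRoot_zetaPow p (n + 1) hp) x]
    exact DFunLike.congr_fun
      (thetaLat_congr N (p ^ n) (zetaPow_succ_pow_div p n hp) _ _) x

/-- **the tower gate of `s31_of_gates`** -/
theorem towerGate (N : ℕ) [NeZero N] (S : Finset ℕ) (p : ℕ) (hp : p ≠ 0) :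
    Fermat.Agent.GJ.Tate.S31Top.TowerGate N S p :=
  Fermat.Agent.GJ.Tate.S30Top.towerGate_of_towerGateC (towerGateC N S p hp)

end Fermat.Agent.GJ.KumTower
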